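import Fermat.Agent.S27x.Spec.GaussNorm.ModelDegree

/-!
# P-S27 block D4 (P3): the characteristic polynomial of an element of a weighted model

For structure constants `P : ι → ι → ι → R[X]` and a tuple `t : ι → R[X]` (`θ = ev x f t`) we
define, purely by formulas (hence compatible with every base change of the coefficient ring):

* `mulMat P t` : the matrix of the multiplication by `θ` in the basis `f`;
* `charQ P t = (mulMat P t).charpoly` : a polynomial in `T` over `R[X]`;
* `powVec P t i₀ n` : the coordinates of `θ ^ n`;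
* `powDet P t i₀` : the determinant of the coordinates of `1, θ, …, θ ^ (d - 1)`.

For a model `M : IsModel W x f i₀ P` over a field: Cayley-Hamilton `Q(x, θ) = 0`, the norm formula
`Q(x, c) = N(c - θ)`, and if `powDet ≠ 0`: `Q` is the minimal polynomial of `θ` over `k(x)`, the
powers of `θ` form a `k(x)`-basis, `R[T]/(Q)` embeds into `L` for every ring `k[x] ⊆ R ⊆ k(x)`.
-/

set_option autoImplicit false
set_option linter.unusedSectionVars false
set_option linter.style.haveILetI false

noncomputable section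

namespace Fermat.Agent.S27x.Spec.Normal

open Polynomial IntermediateField Module
open Fermat.Agent.S27x.Spec.GaussNorm

variable {ι : Type*} [Fintype ι] [DecidableEq ι]

section Formula

variable {R S : Type*} [CommRing R] [CommRing S]

/-- The matrix of the multiplication by `ev t` in the basis `f`: column `j` is the coordinate
vector of `ev t * f j`. -/
def mulMat (P : ι → ι → ι → R[X]) (t : ι → R[X]) : Matrix ι ι R[X] :=
  Matrix.of fun l j => ∑ i, t i * P i j l

theorem mulMat_apply (P : ι → ι → ι → R[X]) (t : ι → R[X]) (l j : ι) :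
    mulMat P t l j = ∑ i, t i * P i j l := rfl

/-- The formal product with `t` is the multiplication by `mulMat P t`. -/
theorem star_eq_mulVec (P : ι → ι → ι → R[X]) (t u : ι → R[X]) :
    GaussNorm.star P t u = (mulMat P t).mulVec u := by
  funext l
  simp only [GaussNorm.star, Matrix.mulVec, dotProduct, mulMat_apply, Finset.sum_mul]
  rw [Finset.sum_comm]
  refine Finset.sum_congr rfl fun j _ => Finset.sum_congr rfl fun i _ => ?_
  ring

/-- The characteristic polynomial of the multiplication by `ev t`: a polynomial in `T` with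
coefficients in `R[X]`. -/
def charQ (P : ι → ι → ι → R[X]) (t : ι → R[X]) : R[X][X] := (mulMat P t).charpoly

theorem charQ_monic [Nontrivial R] (P : ι → ι → ι → R[X]) (t : ι → R[X]) : (charQ P t).Monic :=
  Matrix.charpoly_monic _

theorem charQ_natDegree [Nontrivial R] (P : ι → ι → ι → R[X]) (t : ι → R[X]) :
    (charQ P t).natDegree = Fintype.card ι :=
  Matrix.charpoly_natDegree_eq_dim _

/-- The coordinates of `(ev t) ^ n`. -/
def powVec (P : ι → ι → ι → R[X]) (t : ι → R[X]) (i₀ : ι) : ℕ → ι → R[X]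
  | 0 => Pi.single i₀ 1
  | n + 1 => (mulMat P t).mulVec (powVec P t i₀ n)

theorem powVec_zero (P : ι → ι → ι → R[X]) (t : ι → R[X]) (i₀ : ι) :
    powVec P t i₀ 0 = Pi.single i₀ 1 := rfl

theorem powVec_succ (P : ι → ι → ι → R[X]) (t : ι → R[X]) (i₀ : ι) (n : ℕ) :
    powVec P t i₀ (n + 1) = (mulMat P t).mulVec (powVec P t i₀ n) := rfl

/-- The matrix of the coordinates of `1, θ, …, θ ^ (d - 1)`, `d = card ι`, the columns being
indexed by `ι` through `Fintype.equivFin ι`. -/
def powMat (P : ι → ι → ι → R[X]) (t : ι → R[X]) (i₀ : ι) : Matrix ι ι R[X] :=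
  Matrix.of fun i j => powVec P t i₀ (Fintype.equivFin ι j) i

theorem powMat_apply (P : ι → ι → ι → R[X]) (t : ι → R[X]) (i₀ i j : ι) :
    powMat P t i₀ i j = powVec P t i₀ (Fintype.equivFin ι j) i := rfl

/-- The determinant of the coordinates of `1, θ, …, θ ^ (d - 1)`: nonzero iff `θ` is a primitive
element. -/
def powDet (P : ι → ι → ι → R[X]) (t : ι → R[X]) (i₀ : ι) : R[X] := (powMat P t i₀).det

theorem mulMat_map (g : R →+* S) (P : ι → ι → ι → R[X]) (t : ι → R[X]) :
    mulMat (fun i j l => (P i j l).map g) (fun i => (t i).map g) =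
      (mulMat P t).map (Polynomial.mapRingHom g) := by
  ext l j : 1
  rw [Matrix.map_apply, mulMat_apply, mulMat_apply, map_sum]
  refine Finset.sum_congr rfl fun i _ => ?_
  rw [map_mul]
  rfl

theorem charQ_map (g : R →+* S) (P : ι → ι → ι → R[X]) (t : ι → R[X]) :
    charQ (fun i j l => (P i j l).map g) (fun i => (t i).map g) =
      (charQ P t).map (Polynomial.mapRingHom g) := by
  rw [charQ, charQ, mulMat_map]
  exact Matrix.charpoly_map _ _

theorem powVec_map (g : R →+* S) (P : ι → ι → ι → R[X]) (t : ι → R[X]) (i₀ : ι) (n : ℕ) (i : ι) :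
    powVec (fun i j l => (P i j l).map g) (fun i => (t i).map g) i₀ n i =
      (powVec P t i₀ n i).map g := by
  induction n generalizing i with
  | zero =>
    rw [powVec_zero, powVec_zero]
    by_cases h : i = i₀
    · subst h
      rw [Pi.single_eq_same, Pi.single_eq_same, Polynomial.map_one]
    · rw [Pi.single_eq_of_ne h, Pi.single_eq_of_ne h, Polynomial.map_zero]
  | succ n ih =>
    rw [powVec_succ, powVec_succ, mulMat_map]
    have h1 : powVec (fun i j l => (P i j l).map g) (fun i => (t i).map g) i₀ n =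
        (Polynomial.mapRingHom g) ∘ powVec P t i₀ n := by
      funext j
      exact ih j
    rw [h1]
    exact (RingHom.map_mulVec (Polynomial.mapRingHom g) (mulMat P t) (powVec P t i₀ n) i).symm

theorem powMat_map (g : R →+* S) (P : ι → ι → ι → R[X]) (t : ι → R[X]) (i₀ : ι) :
    powMat (fun i j l => (P i j l).map g) (fun i => (t i).map g) i₀ =
      (powMat P t i₀).map (Polynomial.mapRingHom g) := by
  ext i j : 1
  rw [Matrix.map_apply, powMat_apply, powMat_apply, powVec_map]
  rfl

theorem powDet_map (g : R →+* S) (P : ι → ι → ι → R[X]) (t : ι → R[X]) (i₀ : ι) :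
    powDet (fun i j l => (P i j l).map g) (fun i => (t i).map g) i₀ = (powDet P t i₀).map g := by
  rw [powDet, powDet, powMat_map]
  exact (RingHom.map_det (Polynomial.mapRingHom g) (powMat P t i₀)).symm

end Formula

section Bivariate

variable {k L : Type*} [CommRing k] [CommRing L] [Algebra k L]

/-- The bivariate evaluation as an `eval₂`. -/
theorem aevalAeval_eq_eval₂ (x y : L) (q : k[X][X]) :
    aevalAeval x y q = q.eval₂ ((aeval x : k[X] →ₐ[k] L) : k[X] →+* L) y := by
  induction q using Polynomial.induction_on' with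
  | add p q hp hq => rw [map_add, hp, hq, eval₂_add]
  | monomial n a =>
    rw [← C_mul_X_pow_eq_monomial, map_mul, map_pow, aevalAeval_C, aevalAeval_Y, eval₂_mul,
      eval₂_C, eval₂_pow, eval₂_X]
    rfl

end Bivariate

section Model

open scoped IntermediateField.algebraAdjoinAdjoin

variable {W : Weights ι} {k L : Type*} [Field k] [Field L] [Algebra k L]
  {x : L} {f : ι → L} {i₀ : ι} {P : ι → ι → ι → k[X]} (M : IsModel W x f i₀ P)
  (t : ι → k[X])

include M

/-- `ev t * ev u = ev (mulMat P t • u)`. -/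
theorem ev_mul_ev_eq_ev_mulVec (u : ι → k[X]) :
    ev x f t * ev x f u = ev x f ((mulMat P t).mulVec u) := by
  rw [M.ev_mul, star_eq_mulVec]

/-- `ev t * f j = ∑ l, (mulMat P t l j)(x) * f l`. -/
theorem ev_mul_f (j : ι) :
    ev x f t * f j = ∑ l, aeval x (mulMat P t l j) * f l := by
  have h1 : f j = ev x f (Pi.single j (1 : k[X])) := by
    rw [ev_single, map_one, one_mul]
  conv_lhs => rw [h1, ev_mul_ev_eq_ev_mulVec M]
  unfold ev
  refine Finset.sum_congr rfl fun l _ => ?_
  rw [Matrix.mulVec_single_one]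
  rfl

/-- The powers of `θ = ev t` lie in the model, with coordinates `powVec`. -/
theorem ev_powVec (n : ℕ) : ev x f (powVec P t i₀ n) = ev x f t ^ n := by
  induction n with
  | zero => rw [powVec_zero, M.ev_one, pow_zero]
  | succ n ih => rw [powVec_succ, ← ev_mul_ev_eq_ev_mulVec M, ih, pow_succ']

/-- Coordinates in the basis `M.basis'`. -/
theorem repr_basis'_ev (u : ι → k[X]) (i : ι) :
    M.basis'.repr (ev x f u) i = aeval (AdjoinSimple.gen k x) (u i) := by
  rw [IsModel.ev_eq_sum_smul]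
  have : ∑ i, aeval (AdjoinSimple.gen k x) (u i) • f i =
      ∑ i, aeval (AdjoinSimple.gen k x) (u i) • M.basis' i := by
    simp_rw [M.coe_basis']
  rw [this, Basis.repr_sum_self]

/-- The matrix of the multiplication by `θ = ev t` in the `k(x)`-basis `f`. -/
theorem leftMulMatrix_ev :
    Algebra.leftMulMatrix M.basis' (ev x f t) =
      (mulMat P t).map (aeval (AdjoinSimple.gen k x) : k[X] →ₐ[k] k⟮x⟯) := by
  ext l j
  rw [Algebra.leftMulMatrix_eq_repr_mul, M.coe_basis', ev_mul_f M, Matrix.map_apply]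
  have : ∑ m, aeval x (mulMat P t m j) * f m = ev x f (fun m => mulMat P t m j) := rfl
  rw [this, repr_basis'_ev M]

/-- The characteristic polynomial of the multiplication by `θ` over `k(x)` is the image of
`charQ`. -/
theorem charpoly_leftMulMatrix_ev :
    (Algebra.leftMulMatrix M.basis' (ev x f t)).charpoly =
      (charQ P t).map ((aeval (AdjoinSimple.gen k x) : k[X] →ₐ[k] k⟮x⟯) : k[X] →+* k⟮x⟯) := by
  rw [leftMulMatrix_ev M, charQ]
  exact Matrix.charpoly_map _ _

/-- **Cayley-Hamilton**: `Q(x, θ) = 0`, over `k(x)`. -/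
theorem aeval_map_charQ :
    aeval (ev x f t)
      ((charQ P t).map ((aeval (AdjoinSimple.gen k x) : k[X] →ₐ[k] k⟮x⟯) : k[X] →+* k⟮x⟯)) = 0 := by
  rw [← charpoly_leftMulMatrix_ev M]
  apply Algebra.leftMulMatrix_injective M.basis'
  rw [← Polynomial.aeval_algHom_apply, map_zero]
  exact Matrix.aeval_self_charpoly _

/-- **Cayley-Hamilton**: `Q(x, θ) = 0`. -/
theorem eval₂_charQ :
    (charQ P t).eval₂ ((aeval x : k[X] →ₐ[k] L) : k[X] →+* L) (ev x f t) = 0 := by
  have h := aeval_map_charQ M t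
  rw [aeval_def, eval₂_map] at h
  have h2 : (algebraMap k⟮x⟯ L).comp
      ((aeval (AdjoinSimple.gen k x) : k[X] →ₐ[k] k⟮x⟯) : k[X] →+* k⟮x⟯) =
      ((aeval x : k[X] →ₐ[k] L) : k[X] →+* L) := by
    refine RingHom.ext fun p => ?_
    exact IsModel.algebraMap_aeval_gen p
  rw [h2] at h
  exact h

/-- **Cayley-Hamilton**: `Q(x, θ) = 0`, bivariate form. -/
theorem aevalAeval_charQ : aevalAeval x (ev x f t) (charQ P t) = 0 := by
  rw [aevalAeval_eq_eval₂]
  exact eval₂_charQ M t

/-- **Norm formula**, general form: `Q(x, p(x)) = N_{L/k(x)}(p(x) - θ)`. -/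
theorem norm_aeval_sub_ev (p : k[X]) :
    Algebra.norm k⟮x⟯ (aeval x p - ev x f t) =
      aeval (AdjoinSimple.gen k x) ((charQ P t).eval p) := by
  rw [Algebra.norm_eq_matrix_det M.basis', map_sub, leftMulMatrix_ev M,
    ← IsModel.algebraMap_aeval_gen p, AlgHom.commutes, charQ, Matrix.eval_charpoly]
  have h := RingHom.map_det ((aeval (AdjoinSimple.gen k x) : k[X] →ₐ[k] k⟮x⟯) : k[X] →+* k⟮x⟯)
    (Matrix.scalar ι p - mulMat P t)
  rw [RingHom.mapMatrix_apply] at h
  change _ = ((aeval (AdjoinSimple.gen k x) : k[X] →ₐ[k] k⟮x⟯) : k[X] →+* k⟮x⟯) _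
  rw [h]
  congr 1
  ext i j
  rw [Matrix.sub_apply, Matrix.map_apply, Matrix.map_apply, Matrix.sub_apply,
    Matrix.algebraMap_matrix_apply, Matrix.scalar_apply, Matrix.diagonal_apply]
  by_cases hij : i = j
  · simp [hij]
  · simp [hij]

/-- **Norm formula**: `Q(x, c) = N_{L/k(x)}(c - θ)` for a constant `c`. -/
theorem norm_sub_ev (c : k) :
    Algebra.norm k⟮x⟯ (algebraMap k L c - ev x f t) =
      aeval (AdjoinSimple.gen k x) ((charQ P t).eval (C c)) := by
  rw [← norm_aeval_sub_ev M t (C c), aeval_C]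

/-- `aeval gen : k[X] → k(x)` is injective. -/
theorem aeval_gen_injective :
    Function.Injective (aeval (AdjoinSimple.gen k x) : k[X] →ₐ[k] k⟮x⟯) := by
  rw [injective_iff_map_eq_zero]
  intro p hp
  have h1 : aeval x p = 0 := by
    rw [← IsModel.algebraMap_aeval_gen, hp, map_zero]
  exact (transcendental_iff.mp M.transcendental) p h1

/-- The powers of `θ`, indexed by `ι` through `Fintype.equivFin ι`. -/
def powFam (x : L) (f : ι → L) (t : ι → k[X]) (j : ι) : L := ev x f t ^ (Fintype.equivFin ι j : ℕ)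

/-- The matrix of the powers of `θ` in the basis `f` is the image of `powMat`. -/
theorem toMatrix_powFam :
    M.basis'.toMatrix (powFam x f t) =
      (powMat P t i₀).map (aeval (AdjoinSimple.gen k x) : k[X] →ₐ[k] k⟮x⟯) := by
  ext i j
  rw [Basis.toMatrix_apply, Matrix.map_apply, powMat_apply, powFam, ← ev_powVec M,
    repr_basis'_ev M]

theorem det_powFam :
    M.basis'.det (powFam x f t) = aeval (AdjoinSimple.gen k x) (powDet P t i₀) := by
  rw [Basis.det_apply, toMatrix_powFam M, powDet]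
  exact (RingHom.map_det ((aeval (AdjoinSimple.gen k x) : k[X] →ₐ[k] k⟮x⟯) : k[X] →+* k⟮x⟯)
    (powMat P t i₀)).symm

/-- `powDet ≠ 0` iff the powers `θ ^ j`, `j < d`, are linearly independent over `k(x)`. -/
theorem powDet_ne_zero_of_linearIndependent
    (h : LinearIndependent k⟮x⟯ (fun j : Fin (Fintype.card ι) => ev x f t ^ (j : ℕ))) :
    powDet P t i₀ ≠ 0 := by
  intro h0
  have hli : LinearIndependent k⟮x⟯ (powFam x f t) :=
    h.comp (Fintype.equivFin ι) (Fintype.equivFin ι).injective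
  haveI := M.finiteDimensional
  haveI : Nonempty ι := ⟨i₀⟩
  have hsp : Submodule.span k⟮x⟯ (Set.range (powFam x f t)) = ⊤ :=
    hli.span_eq_top_of_card_eq_finrank' M.finrank_eq.symm
  have hu : IsUnit (M.basis'.det (powFam x f t)) := (Module.Basis.is_basis_iff_det M.basis').mp ⟨hli, hsp⟩
  rw [det_powFam M, h0, map_zero] at hu
  exact not_isUnit_zero hu

/-- If `θ` is a primitive element of `L / k(x)` then `powDet ≠ 0`. -/
theorem powDet_ne_zero_of_adjoin_eq_top (h : k⟮x⟯⟮ev x f t⟯ = ⊤) : powDet P t i₀ ≠ 0 := by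
  haveI := M.finiteDimensional
  have hint : IsIntegral k⟮x⟯ (ev x f t) := IsIntegral.of_finite _ _
  have hdeg : (minpoly k⟮x⟯ (ev x f t)).natDegree = Fintype.card ι := by
    rw [← IntermediateField.adjoin.finrank hint, h, IntermediateField.finrank_top',
      M.finrank_eq]
  have hli := linearIndependent_pow (K := k⟮x⟯) (ev x f t)
  rw [hdeg] at hli
  exact powDet_ne_zero_of_linearIndependent M t hli

variable (hD : powDet P t i₀ ≠ 0)
include hD

theorem isUnit_det_powFam : IsUnit (M.basis'.det (powFam x f t)) := by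
  rw [det_powFam M, isUnit_iff_ne_zero]
  intro h
  exact hD (aeval_gen_injective M (h.trans (map_zero _).symm))

/-- If `powDet ≠ 0` the powers `θ ^ j`, `j < d`, form a `k(x)`-basis of `L`. -/
def powBasis (M : IsModel W x f i₀ P) (t : ι → k[X]) (hD : powDet P t i₀ ≠ 0) :
    Basis (Fin (Fintype.card ι)) k⟮x⟯ L :=
  (Basis.mk ((Module.Basis.is_basis_iff_det M.basis').mpr (isUnit_det_powFam M t hD)).1
    ((Module.Basis.is_basis_iff_det M.basis').mpr (isUnit_det_powFam M t hD)).2.ge).reindex (Fintype.equivFin ι)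

theorem powBasis_apply (j : Fin (Fintype.card ι)) :
    powBasis M t hD j = ev x f t ^ (j : ℕ) := by
  rw [powBasis, Basis.reindex_apply, Basis.mk_apply, powFam, Equiv.apply_symm_apply]

/-- If `powDet ≠ 0` then `θ` generates `L` over `k(x)`: a polynomial of degree `< d` over `k(x)`
vanishing at `θ` is zero. -/
theorem eq_zero_of_aeval_ev_eq_zero {p : k⟮x⟯[X]} (hdeg : p.natDegree < Fintype.card ι)
    (hp : aeval (ev x f t) p = 0) : p = 0 := by
  rw [Polynomial.aeval_eq_sum_range' hdeg, ← Fin.sum_univ_eq_sum_range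
    (fun i => p.coeff i • ev x f t ^ i)] at hp
  have hp' : ∑ j : Fin (Fintype.card ι), p.coeff (j : ℕ) • powBasis M t hD j = 0 := by
    simp_rw [powBasis_apply M t hD]
    exact hp
  have h0 := Fintype.linearIndependent_iff.mp (powBasis M t hD).linearIndependent
    (fun j => p.coeff (j : ℕ)) hp'
  refine Polynomial.ext fun n => ?_
  rw [coeff_zero]
  by_cases hn : n < Fintype.card ι
  · exact h0 ⟨n, hn⟩
  · exact coeff_eq_zero_of_natDegree_lt (lt_of_lt_of_le hdeg (not_lt.mp hn))

/-- If `powDet ≠ 0`, the image of `charQ` over `k(x)` is the minimal polynomial of `θ`. -/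
theorem minpoly_ev :
    minpoly k⟮x⟯ (ev x f t) =
      (charQ P t).map ((aeval (AdjoinSimple.gen k x) : k[X] →ₐ[k] k⟮x⟯) : k[X] →+* k⟮x⟯) := by
  haveI := M.finiteDimensional
  have hint : IsIntegral k⟮x⟯ (ev x f t) := IsIntegral.of_finite _ _
  have hmon : ((charQ P t).map
      ((aeval (AdjoinSimple.gen k x) : k[X] →ₐ[k] k⟮x⟯) : k[X] →+* k⟮x⟯)).Monic :=
    (charQ_monic P t).map _
  have hdegQ : ((charQ P t).map
      ((aeval (AdjoinSimple.gen k x) : k[X] →ₐ[k] k⟮x⟯) : k[X] →+* k⟮x⟯)).natDegree =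
      Fintype.card ι := by
    rw [(charQ_monic P t).natDegree_map, charQ_natDegree]
  have hdvd := minpoly.dvd k⟮x⟯ (ev x f t) (aeval_map_charQ M t)
  have hle : Fintype.card ι ≤ (minpoly k⟮x⟯ (ev x f t)).natDegree := by
    by_contra hlt
    exact minpoly.ne_zero hint
      (eq_zero_of_aeval_ev_eq_zero M t hD (not_le.mp hlt) (minpoly.aeval _ _))
  exact (Polynomial.eq_of_monic_of_dvd_of_natDegree_le (minpoly.monic hint) hmon hdvd
    (hdegQ.le.trans hle)).symm

omit hD in
/-- **Cramer**: `powDet(x) • B ⊆ k[x][θ]`. -/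
theorem exists_powDet_mul_ev_eq (u : ι → k[X]) :
    ∃ a : Fin (Fintype.card ι) → k[X],
      aeval x (powDet P t i₀) * ev x f u = ∑ j, aeval x (a j) * ev x f t ^ (j : ℕ) := by
  set N := powMat P t i₀ with hN
  set a' : ι → k[X] := N.adjugate.mulVec u with ha'
  have h1 : N.mulVec a' = powDet P t i₀ • u := by
    rw [ha', Matrix.mulVec_mulVec, Matrix.mul_adjugate, Matrix.smul_mulVec, Matrix.one_mulVec]
    rfl
  have h2 : powDet P t i₀ • u = ∑ j, a' j • powVec P t i₀ (Fintype.equivFin ι j) := by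
    rw [← h1]
    funext i
    rw [Matrix.mulVec, dotProduct, Finset.sum_apply]
    refine Finset.sum_congr rfl fun j _ => ?_
    rw [Pi.smul_apply, smul_eq_mul, hN, powMat_apply, mul_comm]
  refine ⟨fun j => a' ((Fintype.equivFin ι).symm j), ?_⟩
  rw [← ev_smul, h2, ev_sum, ← Equiv.sum_comp (Fintype.equivFin ι)]
  refine Finset.sum_congr rfl fun j _ => ?_
  rw [ev_smul, ev_powVec M]
  simp only [Equiv.symm_apply_apply]

/-- Every element of `L` is a fraction `(∑ a_j(x) θ^j) / c(x)`. -/
theorem exists_mul_aeval_eq_sum_pow (z : L) :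
    ∃ (a : Fin (Fintype.card ι) → k[X]) (c : k[X]), c ≠ 0 ∧
      z * aeval x c = ∑ j, aeval x (a j) * ev x f t ^ (j : ℕ) := by
  obtain ⟨u, c, hc, hz⟩ := M.exists_eq_div z
  obtain ⟨a, ha⟩ := exists_powDet_mul_ev_eq M t u
  refine ⟨a, c * powDet P t i₀, mul_ne_zero hc hD, ?_⟩
  rw [← ha, ← hz, map_mul]
  ring

/-! ### Rings between `k[x]` and `k(x)` -/

variable {R : Type*} [CommRing R] (φ : k[X] →+* R) (ψ : R →+* k⟮x⟯)
  (hψ : Function.Injective ψ) (hφψ : ∀ p, ψ (φ p) = aeval (AdjoinSimple.gen k x) p)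

omit hD in
include hφψ in
/-- `Q_R(θ) = 0` for `Q_R` the image of `charQ` in `R[T]`. -/
theorem eval₂_map_charQ :
    ((charQ P t).map φ).eval₂ ((algebraMap k⟮x⟯ L).comp ψ) (ev x f t) = 0 := by
  rw [eval₂_map]
  have h2 : ((algebraMap k⟮x⟯ L).comp ψ).comp φ = ((aeval x : k[X] →ₐ[k] L) : k[X] →+* L) := by
    refine RingHom.ext fun p => ?_
    rw [RingHom.comp_apply, RingHom.comp_apply, hφψ]
    exact IsModel.algebraMap_aeval_gen p
  rw [h2]
  exact eval₂_charQ M t

include hψ hφψ in
/-- For a ring `k[x] ⊆ R ⊆ k(x)`: `Q_R` generates the ideal of polynomials over `R` vanishing at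
`θ`. -/
theorem map_charQ_dvd_of_eval₂_eq_zero {p : R[X]}
    (hp : p.eval₂ ((algebraMap k⟮x⟯ L).comp ψ) (ev x f t) = 0) : (charQ P t).map φ ∣ p := by
  haveI : Nontrivial R := ψ.domain_nontrivial
  haveI : Nonempty ι := ⟨i₀⟩
  have hmon : ((charQ P t).map φ).Monic := (charQ_monic P t).map φ
  have hdegQ : ((charQ P t).map φ).natDegree = Fintype.card ι := by
    rw [(charQ_monic P t).natDegree_map, charQ_natDegree]
  have hne1 : (charQ P t).map φ ≠ 1 := by
    intro h1
    rw [h1, natDegree_one] at hdegQ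
    exact (Fintype.card_pos (α := ι)).ne hdegQ
  rw [← Polynomial.modByMonic_eq_zero_iff_dvd hmon]
  set r := p %ₘ (charQ P t).map φ with hr
  have hrdeg : r.natDegree < Fintype.card ι := by
    rw [← hdegQ]
    exact Polynomial.natDegree_modByMonic_lt p hmon hne1
  have hreval : r.eval₂ ((algebraMap k⟮x⟯ L).comp ψ) (ev x f t) = 0 := by
    have h1 := Polynomial.modByMonic_add_div p ((charQ P t).map φ)
    have h2 := congrArg (Polynomial.eval₂ ((algebraMap k⟮x⟯ L).comp ψ) (ev x f t)) h1
    rw [eval₂_add, eval₂_mul, eval₂_map_charQ M t φ ψ hφψ, zero_mul, add_zero, hp] at h2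
    exact h2
  have hmap : r.map ψ = 0 := by
    apply eq_zero_of_aeval_ev_eq_zero M t hD
      (lt_of_le_of_lt (Polynomial.natDegree_map_le) hrdeg)
    rw [aeval_def, eval₂_map]
    exact hreval
  exact Polynomial.map_injective ψ hψ (hmap.trans (Polynomial.map_zero ψ).symm)

/-- The embedding `R[T]/(Q_R) → L`, `T ↦ θ`. -/
def adjoinRootToL (M : IsModel W x f i₀ P) (t : ι → k[X]) (φ : k[X] →+* R) (ψ : R →+* k⟮x⟯)
    (hφψ : ∀ p, ψ (φ p) = aeval (AdjoinSimple.gen k x) p) :
    AdjoinRoot ((charQ P t).map φ) →+* L :=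
  AdjoinRoot.lift ((algebraMap k⟮x⟯ L).comp ψ) (ev x f t) (eval₂_map_charQ M t φ ψ hφψ)

include hψ in
theorem adjoinRootToL_injective :
    Function.Injective (adjoinRootToL M t φ ψ hφψ) := by
  rw [injective_iff_map_eq_zero]
  intro a ha
  obtain ⟨p, rfl⟩ := AdjoinRoot.mk_surjective a
  rw [adjoinRootToL, AdjoinRoot.lift_mk] at ha
  rw [AdjoinRoot.mk_eq_zero]
  exact map_charQ_dvd_of_eval₂_eq_zero M t hD φ ψ hψ hφψ ha

include hψ hφψ in
/-- `R[T]/(Q_R)` is a domain. -/
theorem isDomain_adjoinRoot : IsDomain (AdjoinRoot ((charQ P t).map φ)) :=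
  Function.Injective.isDomain (adjoinRootToL M t φ ψ hφψ)
    (adjoinRootToL_injective M t hD φ ψ hψ hφψ)

include hψ hφψ in
/-- If `R[T]/(Q_R)` is integrally closed, every element of `L` integral over `k[x]` is a polynomial
in `θ` with coefficients in `R`. -/
theorem exists_eval₂_eq_of_isIntegral [IsDomain (AdjoinRoot ((charQ P t).map φ))]
    [IsIntegrallyClosed (AdjoinRoot ((charQ P t).map φ))] {b : L}
    (hb : IsIntegral (Algebra.adjoin k {x}) b) :
    ∃ q : R[X], q.eval₂ ((algebraMap k⟮x⟯ L).comp ψ) (ev x f t) = b := by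
  classical
  have hj : Function.Injective (adjoinRootToL M t φ ψ hφψ) :=
    adjoinRootToL_injective M t hD φ ψ hψ hφψ
  -- `j ∘ of ∘ φ = aeval x`
  have hjφ : ∀ a : k[X], adjoinRootToL M t φ ψ hφψ (AdjoinRoot.of _ (φ a)) = aeval x a := by
    intro a
    rw [adjoinRootToL, AdjoinRoot.lift_of, RingHom.comp_apply, hφψ]
    exact IsModel.algebraMap_aeval_gen a
  -- `b` is integral over `R[T]/(Q_R)`
  have hint : ∃ p' : (AdjoinRoot ((charQ P t).map φ))[X], p'.Monic ∧
      p'.eval₂ (adjoinRootToL M t φ ψ hφψ) b = 0 := by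
    obtain ⟨p, hpm, hp⟩ := hb
    let es : k[X] →+* Algebra.adjoin k {x} :=
      ((aeval x : k[X] →ₐ[k] L).codRestrict (Algebra.adjoin k {x}) (fun a => by
        rw [Algebra.adjoin_singleton_eq_range_aeval]
        exact ⟨a, rfl⟩) : k[X] →ₐ[k] Algebra.adjoin k {x})
    have hes : Function.Surjective es := by
      intro c
      have h1 : (c : L) ∈ (aeval x : k[X] →ₐ[k] L).range := by
        rw [← Algebra.adjoin_singleton_eq_range_aeval]
        exact c.2
      obtain ⟨a, ha⟩ := h1
      exact ⟨a, Subtype.ext ha⟩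
    have hlift : p ∈ Polynomial.lifts es :=
      (Polynomial.mem_lifts p).mpr (Polynomial.map_surjective es hes p)
    obtain ⟨q, hq, -, hqm⟩ := Polynomial.lifts_and_natDegree_eq_and_monic hlift hpm
    refine ⟨q.map ((AdjoinRoot.of ((charQ P t).map φ)).comp φ), hqm.map _, ?_⟩
    rw [eval₂_map]
    have h3 : (adjoinRootToL M t φ ψ hφψ).comp ((AdjoinRoot.of ((charQ P t).map φ)).comp φ) =
        (algebraMap (Algebra.adjoin k {x}) L).comp es := by
      refine RingHom.ext fun a => ?_
      rw [RingHom.comp_apply, RingHom.comp_apply, hjφ]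
      rfl
    rw [h3, ← eval₂_map, hq]
    exact hp
  obtain ⟨p', hp'm, hp'⟩ := hint
  -- `b` is a fraction
  obtain ⟨a, c, hc, hbc⟩ := exists_mul_aeval_eq_sum_pow M t hD b
  set α : AdjoinRoot ((charQ P t).map φ) :=
    ∑ j : Fin (Fintype.card ι), AdjoinRoot.of _ (φ (a j)) * AdjoinRoot.root _ ^ (j : ℕ) with hα
  set γ : AdjoinRoot ((charQ P t).map φ) := AdjoinRoot.of _ (φ c) with hγ
  have hjα : adjoinRootToL M t φ ψ hφψ α = b * adjoinRootToL M t φ ψ hφψ γ := by
    rw [hγ, hjφ, hbc, hα, map_sum]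
    refine Finset.sum_congr rfl fun j _ => ?_
    rw [map_mul, map_pow, hjφ, adjoinRootToL, AdjoinRoot.lift_root]
  have hjγ : adjoinRootToL M t φ ψ hφψ γ ≠ 0 := by
    rw [hγ, hjφ]
    intro h0
    exact hc ((transcendental_iff.mp M.transcendental) c h0)
  have hγ0 : γ ≠ 0 := by
    intro h0
    rw [h0, map_zero] at hjγ
    exact hjγ rfl
  -- the fraction in the fraction field of `R[T]/(Q_R)`
  set FA := FractionRing (AdjoinRoot ((charQ P t).map φ)) with hFA
  set lft : FA →+* L := IsFractionRing.lift hj with hlft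
  have hlft_alg : ∀ y, lft (algebraMap _ FA y) = adjoinRootToL M t φ ψ hφψ y := fun y =>
    IsFractionRing.lift_algebraMap hj y
  set ξ : FA := algebraMap _ FA α / algebraMap _ FA γ with hξ
  have hlξ : lft ξ = b := by
    rw [hξ, map_div₀, hlft_alg, hlft_alg, hjα]
    field_simp
  have hξint : IsIntegral (AdjoinRoot ((charQ P t).map φ)) ξ := by
    refine ⟨p', hp'm, ?_⟩
    apply lft.injective
    rw [map_zero, Polynomial.hom_eval₂, hlξ]
    have h4 : lft.comp (algebraMap (AdjoinRoot ((charQ P t).map φ)) FA) =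
        adjoinRootToL M t φ ψ hφψ := RingHom.ext hlft_alg
    rw [h4]
    exact hp'
  obtain ⟨a', ha'⟩ := IsIntegrallyClosed.isIntegral_iff.mp hξint
  obtain ⟨q, rfl⟩ := AdjoinRoot.mk_surjective a'
  refine ⟨q, ?_⟩
  rw [← hlξ, ← ha', hlft_alg, adjoinRootToL, AdjoinRoot.lift_mk]

end Model

end Fermat.Agent.S27x.Spec.Normal
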