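import Fermat.Agent.S27x.Spec.GaussNorm.ModelDegree

/-!
# P-S27 block D4 (P4 iii): gluing local membership in `B = ⊕ k[x] f_i`

`M : IsModel W x f i₀ P` over an algebraically closed field `k`, `b : L`.  The *conductor*
`{p : k[X] | p(x) b ∈ B}` is an ideal of `k[X]`.  If it contains a nonzero `δ` and, for every root
`β` of `δ`, an element not vanishing at `β`, then it is the unit ideal, i.e. `b ∈ B`.

* `conductor M b : Ideal k[X]`, `mem_conductor`;
* `exists_ev_of_local` : the gluing statement;
* `tnorm_of_local` : with `δ = discr P` (the dual inclusion `δ · (integral closure) ⊆ B` of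
  `ModelDiscr`), normality of `B` follows from the local statements at the roots of `discr P`.
-/

set_option autoImplicit false
set_option linter.unusedSectionVars false
set_option linter.style.haveILetI false

namespace Fermat.Agent.S27x.Spec.Normal

open Polynomial Fermat.Agent.S27x.Spec.GaussNorm

variable {ι : Type*} [Fintype ι]

variable {W : Weights ι} {k L : Type*} [Field k] [Field L] [Algebra k L]
  {x : L} {f : ι → L} {i₀ : ι} {P : ι → ι → ι → k[X]}

/-- The conductor of `b` into `B = ⊕ k[x] f_i`: the polynomials `p` with `p(x) b ∈ B`. -/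
def conductor (_M : IsModel W x f i₀ P) (b : L) : Ideal k[X] where
  carrier := {p | ∃ u : ι → k[X], aeval x p * b = ev x f u}
  add_mem' := by
    rintro p q ⟨u, hu⟩ ⟨w, hw⟩
    exact ⟨u + w, by rw [map_add, add_mul, hu, hw, ev_add]⟩
  zero_mem' := ⟨0, by rw [map_zero, zero_mul, ev_zero]⟩
  smul_mem' := by
    rintro c p ⟨u, hu⟩
    exact ⟨c • u, by rw [smul_eq_mul, map_mul, mul_assoc, hu, ev_smul]⟩

theorem mem_conductor (M : IsModel W x f i₀ P) (b : L) (p : k[X]) :
    p ∈ conductor M b ↔ ∃ u : ι → k[X], aeval x p * b = ev x f u := Iff.rfl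

/-- **Gluing**: if the conductor of `b` contains `δ ≠ 0` and for every root `β` of `δ` an element
not vanishing at `β`, then `b ∈ B`. -/
theorem exists_ev_of_local [IsAlgClosed k] (M : IsModel W x f i₀ P) {b : L} {δ : k[X]}
    (hδ : δ ≠ 0) (hδb : ∃ u : ι → k[X], aeval x δ * b = ev x f u)
    (hloc : ∀ β : k, δ.IsRoot β →
      ∃ s : k[X], s.eval β ≠ 0 ∧ ∃ u : ι → k[X], aeval x s * b = ev x f u) :
    ∃ u : ι → k[X], b = ev x f u := by
  obtain ⟨g, hg⟩ : (conductor M b).IsPrincipal := IsPrincipalIdealRing.principal _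
  have hmem : ∀ p : k[X], p ∈ conductor M b ↔ g ∣ p := by
    intro p
    rw [hg, Ideal.submodule_span_eq, Ideal.mem_span_singleton]
  have hgδ : g ∣ δ := (hmem δ).mp hδb
  have hg0 : g ≠ 0 := by
    rintro rfl
    exact hδ (zero_dvd_iff.mp hgδ)
  -- `g` has no root
  have hroot : ∀ β : k, ¬ g.IsRoot β := by
    intro β hβ
    have hδβ : δ.IsRoot β := by
      obtain ⟨c, rfl⟩ := hgδ
      rw [IsRoot.def, eval_mul, hβ, zero_mul]
    obtain ⟨s, hs, hsb⟩ := hloc β hδβ
    obtain ⟨c, rfl⟩ := (hmem s).mp hsb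
    apply hs
    rw [eval_mul, hβ, zero_mul]
  -- hence `g` is a unit
  have hdeg : g.degree = 0 := by
    by_contra hne
    obtain ⟨β, hβ⟩ := IsAlgClosed.exists_root g hne
    exact hroot β hβ
  have hunit : IsUnit g := by
    rw [Polynomial.isUnit_iff]
    rw [eq_C_of_degree_eq_zero hdeg] at hg0 ⊢
    refine ⟨g.coeff 0, ?_, rfl⟩
    rw [isUnit_iff_ne_zero]
    intro h0
    apply hg0
    rw [h0, map_zero]
  have h1 : (1 : k[X]) ∈ conductor M b := (hmem 1).mpr hunit.dvd
  obtain ⟨u, hu⟩ := h1
  exact ⟨u, by rw [← hu, map_one, one_mul]⟩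

open scoped IntermediateField in
/-- **Normality from local normality at the roots of the discriminant.** -/
theorem tnorm_of_local [IsAlgClosed k] [CharZero k] [DecidableEq ι] (M : IsModel W x f i₀ P)
    {b : L} (hb : IsIntegral (Algebra.adjoin k {x}) b)
    (hloc : ∀ β : k, (discr P).IsRoot β →
      ∃ s : k[X], s.eval β ≠ 0 ∧ ∃ u : ι → k[X], aeval x s * b = ev x f u) :
    ∃ u : ι → k[X], b = ev x f u := by
  haveI := M.finiteDimensional
  exact exists_ev_of_local M (M.discr_ne_zero_of_charZero M.finrank_eq)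
    (M.exists_ev_eq_discr_mul_of_isIntegral M.finrank_eq (fun i => by
      classical
      have h := M.isIntegral_ev (Pi.single i 1)
      rwa [ev_single, map_one, one_mul] at h) hb) hloc

end Fermat.Agent.S27x.Spec.Normal
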