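import Mathlib

/-!
# P-S27 block D4: the local ring `k[X]_(X-β)` of the affine line at a rational point

Mathlib only.  For a field `k` and `β : k`:

* `pIdeal β = (X - β)`, a nonzero prime ideal of `k[X]`; `Rβ β := Localization.AtPrime (pIdeal β)`
  is a discrete valuation ring;
* `evalβ β : Rβ β →+* k`, evaluation at `β`, surjective;
* `algebraMap_notMem_sq` : a polynomial with a simple zero at `β` is not in the square of the
  maximal ideal;
* `toField β hy : Rβ β →+* E` for `y : E` transcendental over `k` (`X ↦ y`), injective;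
* `exists_clear_denominators` : every polynomial over `Rβ β` becomes, after multiplication by
  some `s ∈ k[X]` with `s(β) ≠ 0`, the image of a polynomial over `k[X]`.
-/

set_option autoImplicit false

noncomputable section

open Polynomial IsLocalRing

namespace Fermat.Agent.S27x.Spec.Normal.LocalRing

variable {k : Type*} [Field k] (β : k)

/-- The prime ideal `(X - β)` of `k[X]`. -/
def pIdeal : Ideal k[X] := Ideal.span {X - C β}

theorem mem_pIdeal_iff {p : k[X]} : p ∈ pIdeal β ↔ p.eval β = 0 := by
  rw [pIdeal, Ideal.mem_span_singleton, dvd_iff_isRoot]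
  rfl

instance pIdeal_isPrime : (pIdeal β).IsPrime :=
  (Ideal.span_singleton_prime (X_sub_C_ne_zero β)).mpr (prime_X_sub_C β)

theorem pIdeal_ne_bot : pIdeal β ≠ ⊥ := by
  intro h
  have h1 : X - C β ∈ pIdeal β := Ideal.subset_span rfl
  rw [h, Ideal.mem_bot] at h1
  exact X_sub_C_ne_zero β h1

theorem mem_primeCompl_iff {s : k[X]} : s ∈ (pIdeal β).primeCompl ↔ s.eval β ≠ 0 := by
  rw [Ideal.mem_primeCompl_iff, mem_pIdeal_iff]

/-- The local ring of the affine line at `β`. -/
abbrev Rβ : Type _ := Localization.AtPrime (pIdeal β)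

instance : IsDiscreteValuationRing (Rβ β) :=
  IsLocalization.AtPrime.isDiscreteValuationRing_of_dedekind_domain k[X] (pIdeal_ne_bot β) (Rβ β)

theorem algebraMap_injective : Function.Injective (algebraMap k[X] (Rβ β)) :=
  IsLocalization.injective (Rβ β) (pIdeal β).primeCompl_le_nonZeroDivisors

/-- Evaluation at `β`. -/
def evalβ : Rβ β →+* k :=
  IsLocalization.lift (M := (pIdeal β).primeCompl) (g := evalRingHom β) (fun s =>
    isUnit_iff_ne_zero.mpr ((mem_primeCompl_iff β).mp s.2))

@[simp] theorem evalβ_algebraMap (p : k[X]) : evalβ β (algebraMap k[X] (Rβ β) p) = p.eval β :=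
  IsLocalization.lift_eq _ p

theorem evalβ_surjective : Function.Surjective (evalβ β) := fun c =>
  ⟨algebraMap k[X] (Rβ β) (C c), by rw [evalβ_algebraMap, eval_C]⟩

theorem isUnit_algebraMap {s : k[X]} (hs : s.eval β ≠ 0) : IsUnit (algebraMap k[X] (Rβ β) s) :=
  IsLocalization.map_units (Rβ β) (⟨s, (mem_primeCompl_iff β).mpr hs⟩ : (pIdeal β).primeCompl)

theorem maximalIdeal_eq :
    maximalIdeal (Rβ β) = Ideal.span {algebraMap k[X] (Rβ β) (X - C β)} := by
  rw [← IsLocalization.AtPrime.map_eq_maximalIdeal (pIdeal β) (Rβ β)]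
  unfold pIdeal
  rw [Ideal.map_span, Set.image_singleton]

/-- A polynomial with a simple zero at `β` does not lie in the square of the maximal ideal. -/
theorem algebraMap_notMem_sq {N : k[X]} (h0 : N.eval β = 0) (h1 : N.derivative.eval β ≠ 0) :
    algebraMap k[X] (Rβ β) N ∉ maximalIdeal (Rβ β) ^ 2 := by
  set ϖ := algebraMap k[X] (Rβ β) (X - C β) with hϖ
  have hϖ0 : ϖ ≠ 0 := by
    rw [hϖ, Ne, map_eq_zero_iff _ (algebraMap_injective β)]
    exact X_sub_C_ne_zero β
  -- `N = (X - β) N₁` with `N₁(β) ≠ 0`
  have hN : (X - C β) * (N /ₘ (X - C β)) = N := mul_divByMonic_eq_iff_isRoot.mpr h0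
  set N₁ := N /ₘ (X - C β) with hN₁
  have hN₁β : N₁.eval β ≠ 0 := by
    have hd : N.derivative = N₁ + (X - C β) * N₁.derivative := by
      rw [← hN, derivative_mul, derivative_sub, derivative_X, derivative_C, sub_zero, one_mul]
    rw [hd, eval_add, eval_mul, eval_sub, eval_X, eval_C, sub_self, zero_mul, add_zero] at h1
    exact h1
  have hunit := isUnit_algebraMap β hN₁β
  intro hmem
  rw [maximalIdeal_eq, Ideal.span_singleton_pow, Ideal.mem_span_singleton] at hmem
  obtain ⟨r, hr⟩ := hmem
  rw [← hN, map_mul, ← hϖ, pow_two, mul_assoc] at hr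
  have h2 : algebraMap k[X] (Rβ β) N₁ = ϖ * r := mul_left_cancel₀ hϖ0 hr
  have h3 : algebraMap k[X] (Rβ β) N₁ ∈ maximalIdeal (Rβ β) := by
    rw [maximalIdeal_eq, Ideal.mem_span_singleton]
    exact ⟨r, h2⟩
  exact (mem_maximalIdeal _).mp h3 hunit

section toField

variable {E : Type*} [Field E] [Algebra k E] {y : E} (hy : Transcendental k y)

/-- The embedding `k[X]_(X-β) → E`, `X ↦ y`, for `y` transcendental over `k`. -/
def toField : Rβ β →+* E :=
  IsLocalization.lift (M := (pIdeal β).primeCompl)
    (g := ((aeval y : k[X] →ₐ[k] E) : k[X] →+* E)) (fun s => by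
      apply isUnit_iff_ne_zero.mpr
      have hs0 : (s : k[X]) ≠ 0 := by
        intro h
        have := (mem_primeCompl_iff β).mp s.2
        rw [h, eval_zero] at this
        exact this rfl
      intro h
      exact hs0 ((transcendental_iff.mp hy) _ h))

@[simp] theorem toField_algebraMap (p : k[X]) :
    toField β hy (algebraMap k[X] (Rβ β) p) = aeval y p :=
  IsLocalization.lift_eq _ p

theorem toField_injective : Function.Injective (toField β hy) := by
  unfold toField
  rw [IsLocalization.lift_injective_iff]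
  intro p q
  rw [(algebraMap_injective β).eq_iff]
  constructor
  · rintro rfl; rfl
  · intro h
    exact (transcendental_iff_injective.mp hy) h

end toField

/-- Clearing denominators: every polynomial over `k[X]_(X-β)` is, up to a factor `s` with
`s(β) ≠ 0`, the image of a polynomial over `k[X]`. -/
theorem exists_clear_denominators (q : (Rβ β)[X]) :
    ∃ s : k[X], s.eval β ≠ 0 ∧ ∃ q' : k[X][X],
      q'.map (algebraMap k[X] (Rβ β)) = C (algebraMap k[X] (Rβ β) s) * q := by
  obtain ⟨b, hbM, hb⟩ := IsLocalization.integerNormalization_spec (pIdeal β).primeCompl q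
  refine ⟨b, (mem_primeCompl_iff β).mp hbM,
    IsLocalization.integerNormalization (pIdeal β).primeCompl q, ?_⟩
  rw [hb, Algebra.smul_def]
  rfl

end Fermat.Agent.S27x.Spec.Normal.LocalRing
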