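import Mathlib
import Fermat.Agent.S27x.Spec.Normal.CharQ
import Fermat.Agent.S27x.Spec.Normal.LocalRing
import Fermat.Agent.S27x.Spec.NormalLocal

/-!
# P-S27 block D4 (P4 i-ii): local normality of a weighted model at a regular fibre

`M : IsModel W x f i₀ P` over an algebraically closed field `k`, `θ = ev x f t` a primitive element
(`powDet P t i₀ ≠ 0`), `Q = charQ P t ∈ k[x][T]` its characteristic polynomial.  If at `β : k` every
point `(β, θ₀)` of the plane curve `Q = 0` satisfies `(∂Q/∂x)(β, θ₀) ≠ 0`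
(convention: `((charQ P t).eval (C θ₀)).derivative.eval β ≠ 0`), then every `b : L` integral over
`k[x]` satisfies `s(x) b ∈ B = ⊕ k[x] f_i` for some `s` with `s(β) ≠ 0`.

Proof: `R = k[X]_(X-β)` is a DVR (`LocalRing.lean`), `R[T]/(Q)` is a domain embedded in `L`
(`CharQ.lean`), integrally closed by the Dedekind criterion in regular-point form
(`NormalLocal.isIntegrallyClosed_adjoinRoot`), hence contains `b`; clear denominators.
-/

set_option autoImplicit false
set_option linter.unusedSectionVars false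
set_option linter.style.haveILetI false

noncomputable section

open Polynomial IntermediateField IsLocalRing

namespace Fermat.Agent.S27x.Spec.Normal

open Fermat.Agent.S27x.Spec.GaussNorm Fermat.Agent.S27x.Spec.Normal.LocalRing

variable {ι : Type*} [Fintype ι] [DecidableEq ι]

/-- Evaluation of a bivariate polynomial: first `x ↦ β`, then `T ↦ θ₀`, or first `T ↦ θ₀` (as a
constant), then `x ↦ β`. -/
theorem eval_map_evalRingHom {k : Type*} [CommRing k] (Q : k[X][X]) (β θ₀ : k) :
    (Q.map (evalRingHom β)).eval θ₀ = (Q.eval (C θ₀)).eval β := by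
  rw [eval_map]
  have h := Polynomial.hom_eval₂ Q (RingHom.id k[X]) (evalRingHom β) (C θ₀)
  rw [RingHom.comp_id, coe_evalRingHom, eval_C] at h
  rw [← h]
  rfl

variable {W : Weights ι} {k L : Type*} [Field k] [Field L] [Algebra k L]
  {x : L} {f : ι → L} {i₀ : ι} {P : ι → ι → ι → k[X]} (M : IsModel W x f i₀ P) (t : ι → k[X])

include M in
/-- `k[x][θ] ⊆ B`. -/
theorem exists_ev_eq_sum_pow (a : ℕ → k[X]) (n : ℕ) :
    ∃ u : ι → k[X], ∑ j ∈ Finset.range n, aeval x (a j) * ev x f t ^ j = ev x f u := by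
  refine ⟨∑ j ∈ Finset.range n, a j • powVec P t i₀ j, ?_⟩
  rw [ev_sum]
  refine Finset.sum_congr rfl fun j _ => ?_
  rw [ev_smul, ev_powVec M t j]

include M in
theorem transcendental_gen : Transcendental k (AdjoinSimple.gen k x) := by
  have hx := M.transcendental
  rw [transcendental_iff] at hx ⊢
  intro p hp
  apply hx p
  have h1 : aeval x p = algebraMap k⟮x⟯ L (aeval (AdjoinSimple.gen k x) p) := by
    rw [← aeval_algebraMap_apply, AdjoinSimple.algebraMap_gen]
  rw [h1, hp, map_zero]

include M in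
/-- **Local normality at a regular fibre** (P4 i-ii). -/
theorem exists_mul_eq_ev_of_isIntegral [IsAlgClosed k] (hD : powDet P t i₀ ≠ 0) (β : k)
    (hreg : ∀ θ₀ : k, ((charQ P t).eval (C θ₀)).eval β = 0 →
      ((charQ P t).eval (C θ₀)).derivative.eval β ≠ 0)
    {b : L} (hb : IsIntegral (Algebra.adjoin k {x}) b) :
    ∃ s : k[X], s.eval β ≠ 0 ∧ ∃ u : ι → k[X], aeval x s * b = ev x f u := by
  have hgen := transcendental_gen M
  set φ : k[X] →+* Rβ β := algebraMap k[X] (Rβ β) with hφ
  set ψ : Rβ β →+* k⟮x⟯ := toField β hgen with hψdef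
  have hψ : Function.Injective ψ := toField_injective β hgen
  have hφψ : ∀ p, ψ (φ p) = aeval (AdjoinSimple.gen k x) p := toField_algebraMap β hgen
  have hQ : ((charQ P t).map φ).Monic := (charQ_monic P t).map φ
  haveI := isDomain_adjoinRoot M t hD φ ψ hψ hφψ
  have hcomp : (evalβ β).comp φ = evalRingHom β := by
    ext p
    · simp [hφ]
    · simp [hφ]
  haveI : IsIntegrallyClosed (AdjoinRoot ((charQ P t).map φ)) := by
    refine NormalLocal.isIntegrallyClosed_adjoinRoot (evalβ β) (evalβ_surjective β) hQ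
      (IsAlgClosed.splits _) ?_
    intro θ₀ hθ₀
    refine ⟨φ (C θ₀), by rw [hφ, evalβ_algebraMap, eval_C], Or.inr ?_⟩
    have h1 : ((charQ P t).map φ).eval (φ (C θ₀)) = φ ((charQ P t).eval (C θ₀)) := by
      rw [eval_map, eval₂_at_apply]
    rw [h1]
    have h0 : ((charQ P t).eval (C θ₀)).eval β = 0 := by
      rw [← eval_map_evalRingHom, ← hcomp, ← Polynomial.map_map]
      exact hθ₀
    exact algebraMap_notMem_sq β h0 (hreg θ₀ h0)
  obtain ⟨q, hq⟩ := exists_eval₂_eq_of_isIntegral M t hD φ ψ hψ hφψ hb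
  obtain ⟨s, hs, q', hq'⟩ := exists_clear_denominators β q
  refine ⟨s, hs, ?_⟩
  set evR : Rβ β →+* L := (algebraMap k⟮x⟯ L).comp ψ with hevR
  have hevφ : ∀ p : k[X], evR (φ p) = aeval x p := by
    intro p
    rw [hevR, RingHom.comp_apply, hφψ, ← aeval_algebraMap_apply, AdjoinSimple.algebraMap_gen]
  have h2 : aeval x s * b = (q'.map φ).eval₂ evR (ev x f t) := by
    rw [hq', eval₂_mul, eval₂_C, hq, hevφ]
  rw [h2, eval₂_map, eval₂_eq_sum_range]
  have h3 : ∀ j, (evR.comp φ) (q'.coeff j) = aeval x (q'.coeff j) := fun j => hevφ _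
  simp only [h3]
  exact exists_ev_eq_sum_pow M t (fun j => q'.coeff j) _

end Fermat.Agent.S27x.Spec.Normal
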