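import Fermat.Agent.S27x.Spec.HenselRoots

/-!
# P-S27 block D4: reduction of roots (`K`-side → `k`-side transfer)

`K` algebraically closed, `A : ValuationSubring K`, `π : A →+* k` a ring homomorphism to a field.

* bivariate bookkeeping for `Q : R[X][X]` (inner variable `x`, outer variable `T`): the two ways of
  evaluating at a point `(β, θ₀)` agree (`eval_eval_C_eq`), and both commute with base change
  (`eval_C_map`, `map_evalRingHom_map`);
* `exists_root_of_map_root` (RR1): if the leading coefficient of `p : A[X]` is a unit, every root of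
  the reduction `p.map π` is the reduction of a root of `p` in `A`;
* `exists_root_of_map_root_biv` (RR2): the same for the roots of `Q̄(β̄, T)`, `Q` monic in `T`;
* `derivative_eval_ne_zero_of_valuation` (transfer): if the finitely many values
  `(∂Q_K/∂x)(β, θ₀)` at the points `(β, θ₀) ∈ K × K` of the curve `Q_K = 0` over the roots `β` of
  `δ_K` have valuation one, then `(∂Q̄/∂x)(β̄, θ̄₀) ≠ 0` at every point `(β̄, θ̄₀)` of the reduced
  curve over every root `β̄` of `δ̄`.
-/

set_option autoImplicit false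
set_option linter.unusedSectionVars false

namespace Fermat.Agent.S27x.Spec.Normal

open Polynomial

/-! ### Bivariate bookkeeping -/

section Biv

variable {R S : Type*} [CommRing R] [CommRing S] (φ : R →+* S)

/-- Substituting a constant for `T` commutes with base change. -/
theorem eval_C_map (Q : R[X][X]) (a : R) :
    (Q.map (mapRingHom φ)).eval (C (φ a)) = (Q.eval (C a)).map φ := by
  have h := Polynomial.eval_map_apply (p := Q) (mapRingHom φ) (C a)
  rw [coe_mapRingHom, Polynomial.map_C] at h
  exact h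

/-- The two ways of evaluating a bivariate polynomial at the point `(β, θ₀)` agree. -/
theorem eval_eval_C_eq (Q : R[X][X]) (β θ₀ : R) :
    (Q.eval (C θ₀)).eval β = (Q.map (evalRingHom β)).eval θ₀ := by
  have h := Polynomial.eval_map_apply (p := Q) (evalRingHom β) (C θ₀)
  rw [coe_evalRingHom, eval_C] at h
  exact h.symm

theorem evalRingHom_comp_mapRingHom (β : R) :
    (evalRingHom (φ β)).comp (mapRingHom φ) = φ.comp (evalRingHom β) := by
  ext p
  · simp
  · simp

/-- Specialising `x := β` commutes with base change. -/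
theorem map_evalRingHom_map (Q : R[X][X]) (β : R) :
    (Q.map (mapRingHom φ)).map (evalRingHom (φ β)) = (Q.map (evalRingHom β)).map φ := by
  rw [Polynomial.map_map, Polynomial.map_map, evalRingHom_comp_mapRingHom]

/-- `(∂Q/∂x)(β, θ₀)` commutes with base change. -/
theorem derivative_eval_map (Q : R[X][X]) (β θ₀ : R) :
    ((Q.map (mapRingHom φ)).eval (C (φ θ₀))).derivative.eval (φ β) =
      φ ((Q.eval (C θ₀)).derivative.eval β) := by
  rw [eval_C_map, derivative_map, Polynomial.eval_map_apply]

theorem eval_eval_map (Q : R[X][X]) (β θ₀ : R) :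
    ((Q.map (mapRingHom φ)).eval (C (φ θ₀))).eval (φ β) = φ ((Q.eval (C θ₀)).eval β) := by
  rw [eval_C_map, Polynomial.eval_map_apply]

end Biv

/-! ### Reduction of roots -/

section Roots

variable {K : Type*} [Field K] [IsAlgClosed K] (A : ValuationSubring K) {k : Type*} [Field k]
  (π : A →+* k)

/-- Monic case of (RR1). -/
theorem exists_root_of_map_root_of_monic {p : A[X]} (hp : p.Monic) {c : k}
    (hc : (p.map π).IsRoot c) : ∃ a : A, p.IsRoot a ∧ π a = c := by
  obtain ⟨s, hs⟩ := exists_multiset_eq_prod A hp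
  have h1 : (p.map π).eval c = (s.map fun a => c - π a).prod := by
    rw [hs, Polynomial.map_multiset_prod, eval_multiset_prod, Multiset.map_map, Multiset.map_map]
    congr 1
    refine Multiset.map_congr rfl fun a _ => ?_
    simp
  rw [IsRoot.def, h1, Multiset.prod_eq_zero_iff, Multiset.mem_map] at hc
  obtain ⟨a, ha, h0⟩ := hc
  refine ⟨a, ?_, (sub_eq_zero.mp h0).symm⟩
  rw [hs, IsRoot.def, eval_multiset_prod, Multiset.prod_eq_zero_iff, Multiset.map_map]
  exact Multiset.mem_map.mpr ⟨a, ha, by simp⟩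

/-- **(RR1)** If the leading coefficient of `p` is a unit of `A`, every root of the reduction of `p`
is the reduction of a root of `p` in `A`. -/
theorem exists_root_of_map_root {p : A[X]} (hp : IsUnit p.leadingCoeff) {c : k}
    (hc : (p.map π).IsRoot c) : ∃ a : A, p.IsRoot a ∧ π a = c := by
  obtain ⟨u, hu⟩ := hp
  have hmon : (C ((u⁻¹ : Aˣ) : A) * p).Monic :=
    monic_C_mul_of_mul_leadingCoeff_eq_one (by rw [← hu, Units.inv_mul])
  have hc' : ((C ((u⁻¹ : Aˣ) : A) * p).map π).IsRoot c := by
    rw [Polynomial.map_mul, IsRoot.def, eval_mul, hc.eq_zero, mul_zero]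
  obtain ⟨a, ha, hac⟩ := exists_root_of_map_root_of_monic A π hmon hc'
  refine ⟨a, ?_, hac⟩
  rw [IsRoot.def, eval_mul, eval_C] at ha
  rcases mul_eq_zero.mp ha with h | h
  · exact absurd h (Units.ne_zero _)
  · exact h

/-- **(RR2)** `Q` monic in `T`, `β : A`: every root of `Q̄(β̄, T)` is the reduction of a root of
`Q(β, T)` in `A`. -/
theorem exists_root_of_map_root_biv {Q : A[X][X]} (hQ : Q.Monic) (β : A) {θb : k}
    (hθb : ((Q.map (mapRingHom π)).map (evalRingHom (π β))).IsRoot θb) :
    ∃ θ₀ : A, (Q.map (evalRingHom β)).IsRoot θ₀ ∧ π θ₀ = θb := by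
  rw [map_evalRingHom_map] at hθb
  exact exists_root_of_map_root_of_monic A π (hQ.map _) hθb

/-- The roots in `K` of a polynomial over `A` with unit leading coefficient lie in `A`. -/
theorem exists_root_of_isRoot_map_algebraMap {p : A[X]} (hp : IsUnit p.leadingCoeff) {α : K}
    (hα : (p.map (algebraMap A K)).IsRoot α) : ∃ a : A, (a : K) = α ∧ p.IsRoot a := by
  obtain ⟨u, hu⟩ := hp
  have hmon : (C ((u⁻¹ : Aˣ) : A) * p).Monic :=
    monic_C_mul_of_mul_leadingCoeff_eq_one (by rw [← hu, Units.inv_mul])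
  have hα' : ((C ((u⁻¹ : Aˣ) : A) * p).map (algebraMap A K)).eval α = 0 := by
    rw [Polynomial.map_mul, eval_mul, hα.eq_zero, mul_zero]
  obtain ⟨a, ha, hroot⟩ := exists_root_mem_of_monic A hmon hα'
  refine ⟨a, ha, ?_⟩
  rw [IsRoot.def, eval_mul, eval_C] at hroot
  rcases mul_eq_zero.mp hroot with h | h
  · exact absurd h (Units.ne_zero _)
  · exact h

/-- **Transfer of the smoothness condition**: if `(∂Q_K/∂x)(β, θ₀)` has valuation one at every
point `(β, θ₀) ∈ K × K` of the curve `Q_K = 0` over every root `β` of `δ_K`, then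
`(∂Q̄/∂x)(β̄, θ̄₀) ≠ 0` at every point of the reduced curve over every root `β̄` of `δ̄`. -/
theorem derivative_eval_ne_zero_of_valuation {δ : A[X]} (hδ : IsUnit δ.leadingCoeff)
    {Q : A[X][X]} (hQ : Q.Monic)
    (hunit : ∀ β θ₀ : K, (δ.map (algebraMap A K)).IsRoot β →
      ((Q.map (mapRingHom (algebraMap A K))).eval (C θ₀)).IsRoot β →
      A.valuation (((Q.map (mapRingHom (algebraMap A K))).eval (C θ₀)).derivative.eval β) = 1)
    {βb : k} (hβb : (δ.map π).IsRoot βb) {θb : k}
    (hθb : ((Q.map (mapRingHom π)).eval (C θb)).IsRoot βb) :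
    ((Q.map (mapRingHom π)).eval (C θb)).derivative.eval βb ≠ 0 := by
  obtain ⟨β, hβ, rfl⟩ := exists_root_of_map_root A π hδ hβb
  have hθb' : ((Q.map (mapRingHom π)).map (evalRingHom (π β))).IsRoot θb := by
    rw [IsRoot.def, ← eval_eval_C_eq]
    exact hθb
  obtain ⟨θ₀, hθ₀, rfl⟩ := exists_root_of_map_root_biv A π hQ β hθb'
  rw [derivative_eval_map]
  have hβK : (δ.map (algebraMap A K)).IsRoot (algebraMap A K β) := by
    rw [IsRoot.def, Polynomial.eval_map_apply, hβ.eq_zero, map_zero]
  have hθK : ((Q.map (mapRingHom (algebraMap A K))).eval (C (algebraMap A K θ₀))).IsRoot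
      (algebraMap A K β) := by
    rw [IsRoot.def, eval_eval_map, eval_eval_C_eq, hθ₀.eq_zero, map_zero]
  have h1 := hunit _ _ hβK hθK
  rw [derivative_eval_map] at h1
  have hu : IsUnit ((Q.eval (C θ₀)).derivative.eval β) :=
    (ValuationSubring.valuation_eq_one_iff A _).mpr h1
  exact (hu.map π).ne_zero

/-- Variant of the transfer with the hypothesis on the `A`-side: the values `(∂Q/∂x)(β, θ₀)` at the
points of the curve over the roots of `δ` in `A` are units. -/
theorem derivative_eval_ne_zero_of_isUnit {δ : A[X]} (hδ : IsUnit δ.leadingCoeff)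
    {Q : A[X][X]} (hQ : Q.Monic)
    (hunit : ∀ β θ₀ : A, δ.IsRoot β → (Q.eval (C θ₀)).IsRoot β →
      IsUnit ((Q.eval (C θ₀)).derivative.eval β))
    {βb : k} (hβb : (δ.map π).IsRoot βb) {θb : k}
    (hθb : ((Q.map (mapRingHom π)).eval (C θb)).IsRoot βb) :
    ((Q.map (mapRingHom π)).eval (C θb)).derivative.eval βb ≠ 0 := by
  obtain ⟨β, hβ, rfl⟩ := exists_root_of_map_root A π hδ hβb
  have hθb' : ((Q.map (mapRingHom π)).map (evalRingHom (π β))).IsRoot θb := by
    rw [IsRoot.def, ← eval_eval_C_eq]
    exact hθb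
  obtain ⟨θ₀, hθ₀, rfl⟩ := exists_root_of_map_root_biv A π hQ β hθb'
  rw [derivative_eval_map]
  have h0 : (Q.eval (C θ₀)).IsRoot β := by
    rw [IsRoot.def, eval_eval_C_eq]
    exact hθ₀
  exact ((hunit β θ₀ hβ h0).map π).ne_zero

end Roots

end Fermat.Agent.S27x.Spec.Normal
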