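import Fermat.Agent.S27x.Spec.Normal.ThetaModel
import Fermat.Agent.S27x.Spec.Normal.CharQ

/-!
# P-S27 block D4: the K-side regularity statement for `CharQ.charQ`

`M : IsModel W x f i₀ PK` a normal weighted model of `F / K` (`K` algebraically closed of
characteristic zero).  For every `δ ≠ 0` (e.g. `δ = discr PK`) there is `t : ι → K[X]` such that
`θ = ev x f t` is primitive (`powDet PK t i₀ ≠ 0`) and the plane curve `Q = charQ PK t` is regular
in the `x`-direction over every root of `δ`: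
`Q(β, θ₀) = 0 → (∂Q/∂x)(β, θ₀) ≠ 0`, where `(∂Q/∂x)(β, θ₀)` is
`(derivative (Q.eval (C θ₀))).eval β` (the convention of `Normal/RootsRed.lean`).
-/

set_option autoImplicit false
set_option linter.unusedSectionVars false

open Polynomial IntermediateField AlgebraicCurve

namespace Fermat.Agent.S27x.Spec.Normal.ThetaModel

open Fermat.Agent.S27x.Spec.GaussNorm Fermat.Agent.S27x.Spec.Normal

variable {ι : Type*} [Fintype ι] [DecidableEq ι] {W : Weights ι} {K F : Type*} [Field K] [Field F]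
  [Algebra K F] [IsAlgClosed K] [CharZero K]
  {x : F} {f : ι → F} {i₀ : ι} {PK : ι → ι → ι → K[X]}

/-- **K-side of D4** for `charQ` / `powDet`, over a finite nonempty set of points. -/
theorem exists_t_charQ_finset (M : IsModel W x f i₀ PK)
    (hB : ∀ g : F, IsIntegral (Algebra.adjoin K {x}) g → ∃ u : ι → K[X], g = ev x f u)
    (S : Finset K) (hS : S.Nonempty) :
    ∃ t : ι → K[X], powDet PK t i₀ ≠ 0 ∧ K⟮x⟯⟮ev x f t⟯ = ⊤ ∧
      ∀ β ∈ S, ∀ θ₀ : K, ((charQ PK t).eval (C θ₀)).eval β = 0 →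
        (derivative ((charQ PK t).eval (C θ₀))).eval β ≠ 0 :=
  exists_t M hB (fun t => charQ PK t) (fun t => powDet PK t i₀)
    (fun t c => norm_sub_ev M t c) (fun t h => powDet_ne_zero_of_adjoin_eq_top M t h) S hS

/-- **K-side of D4** for `charQ` / `powDet`, over the roots of `δ ≠ 0`. -/
theorem exists_t_charQ (M : IsModel W x f i₀ PK)
    (hB : ∀ g : F, IsIntegral (Algebra.adjoin K {x}) g → ∃ u : ι → K[X], g = ev x f u)
    {δ : K[X]} (hδ : δ ≠ 0) :
    ∃ t : ι → K[X], powDet PK t i₀ ≠ 0 ∧ K⟮x⟯⟮ev x f t⟯ = ⊤ ∧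
      ∀ β : K, δ.IsRoot β → ∀ θ₀ : K, ((charQ PK t).eval (C θ₀)).eval β = 0 →
        (derivative ((charQ PK t).eval (C θ₀))).eval β ≠ 0 :=
  exists_t_discr M hB (fun t => charQ PK t) (fun t => powDet PK t i₀)
    (fun t c => norm_sub_ev M t c) (fun t h => powDet_ne_zero_of_adjoin_eq_top M t h) hδ

/-- **K-side of D4** over the roots of the discriminant of the model. -/
theorem exists_t_charQ_discr (M : IsModel W x f i₀ PK)
    (hB : ∀ g : F, IsIntegral (Algebra.adjoin K {x}) g → ∃ u : ι → K[X], g = ev x f u) :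
    ∃ t : ι → K[X], powDet PK t i₀ ≠ 0 ∧ K⟮x⟯⟮ev x f t⟯ = ⊤ ∧
      ∀ β : K, (discr PK).IsRoot β → ∀ θ₀ : K, ((charQ PK t).eval (C θ₀)).eval β = 0 →
        (derivative ((charQ PK t).eval (C θ₀))).eval β ≠ 0 := by
  have := M.finiteDimensional
  exact exists_t_charQ M hB (M.discr_ne_zero_of_charZero M.finrank_eq)

end Fermat.Agent.S27x.Spec.Normal.ThetaModel
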