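import Fermat.Agent.S27x.Spec.Step
import Fermat.Agent.S27x.Spec.GaussNorm.ModelGenus
import Fermat.Agent.S27x.Spec.Normal.Glue
import Fermat.Agent.S27x.Spec.Normal.RootsRed
import Fermat.Agent.S27x.Spec.Normal.CharQ
import Fermat.Agent.S27x.Spec.Normal.Local
import Fermat.Agent.S27x.Spec.Normal.ThetaCharQ

/-!
# P-S27 block D4: normality of the reduced Apéry model — integration

**`normalProp : NormalProp`** (the input of the assembly D8, `Spec/Step.lean`), obtained as
`normalProp_of_props : ThetaProp → LocalProp → NormalProp` from `thetaProp` and `localProp`, where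

* `ThetaProp` (K-side, `Normal/Theta.lean`): every weighted model `M : ModelAt P d` over `K` has an
  element `θ = ev x f t` of `B` which is primitive (`powDet ≠ 0`) and such that the plane curve
  `Q = charQ PK t` is smooth in the `x`-direction at all its points over the roots of `discr PK`;
* `LocalProp` (k-side, `Normal/Local.lean`): for a weighted model over `k` with such a `θ̄`, every
  element integral over `k[x̄]` lies in `B̄` after multiplication by a polynomial not vanishing at
  the given root `β̄`;
* `NormalProp` (`Spec/Step.lean`): the input of the assembly D8.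

The conditions on the valuation ring `A` (the (P6) list): the coefficients of `t` lie in `A`; the
leading coefficients of `discr PK` and of `powDet PK t i₀` are units; the finitely many values
`(∂Q/∂x)(β, θ₀)` are units.
-/

set_option autoImplicit false
set_option linter.unusedSectionVars false
set_option linter.style.haveILetI false

noncomputable section

open Polynomial IsLocalRing AlgebraicCurve

namespace Fermat.Agent.S27x.Spec.Normal

open Fermat.Agent.S27x.Spec Fermat.Agent.S27x.Spec.GaussNorm Fermat.Agent.S27x.Spec.AperyModel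

universe u v

/-! ### The two inputs -/

/-- **(P1)+(P2)+(P2')**, K-side: a primitive element `θ = ev x f t` of `B` whose characteristic
curve is smooth in the `x`-direction over the roots of the discriminant. -/
def ThetaProp : Prop :=
  ∀ (K : Type u) [Field K] [IsAlgClosed K] [CharZero K] (F : Type v) [Field F] [Algebra K F]
    (P : Place K F) (d : ℕ) (M : ModelAt P d),
    ∃ t : Fin d → K[X], powDet M.PK t M.i₀ ≠ 0 ∧
      ∀ β θ₀ : K, (discr M.PK).IsRoot β → ((charQ M.PK t).eval (C θ₀)).IsRoot β →
        ((charQ M.PK t).eval (C θ₀)).derivative.eval β ≠ 0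

/-- **(P4 i-ii)**, k-side: local normality at a point `β` of the `x`-line over which the
characteristic curve of a primitive `θ` is smooth in the `x`-direction. -/
def LocalProp : Prop :=
  ∀ (k : Type u) [Field k] [IsAlgClosed k] [CharZero k] (L : Type v) [Field L] [Algebra k L]
    (d : ℕ) (W : Weights (Fin d)) (x : L) (f : Fin d → L) (i₀ : Fin d)
    (P : Fin d → Fin d → Fin d → k[X]) (_M : IsModel W x f i₀ P) (t : Fin d → k[X]),
    powDet P t i₀ ≠ 0 → ∀ β : k,
      (∀ θb : k, ((charQ P t).eval (C θb)).IsRoot β →
        ((charQ P t).eval (C θb)).derivative.eval β ≠ 0) →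
      ∀ b : L, IsIntegral (Algebra.adjoin k {x}) b →
        ∃ s : k[X], s.eval β ≠ 0 ∧ ∃ u : Fin d → k[X], aeval x s * b = ev x f u

/-! ### From conditions on `A` to (T-norm) -/

section Aside

variable {K : Type*} [Field K] [IsAlgClosed K] {A : ValuationSubring K}
  {F : Type*} [Field F] [Algebra K F] {ι : Type*} [Fintype ι] [DecidableEq ι]
  (D : AperyData A F ι) {k : Type*} [Field k] [IsAlgClosed k] [CharZero k] [Algebra k D.κ]
  {π : A →+* k} (hc : D.Compat π) (hπ : Function.Surjective π)

include hc hπ in
/-- (T-norm) for the reduction of an integral Apéry model, from explicit unit conditions on `A`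
and the local normality statement. -/
theorem tnorm_of_conditions (tA : ι → A[X])
    (hδ : IsUnit (discr D.P).leadingCoeff)
    (hdet : IsUnit (powDet D.P tA D.i₀).leadingCoeff)
    (hunit : ∀ β θ₀ : K, ((discr D.P).map (algebraMap A K)).IsRoot β →
      (((charQ D.P tA).map (mapRingHom (algebraMap A K))).eval (C θ₀)).IsRoot β →
      A.valuation ((((charQ D.P tA).map (mapRingHom (algebraMap A K))).eval
        (C θ₀)).derivative.eval β) = 1)
    (hloc : powDet (fun i j l => (D.P i j l).map π) (fun i => (tA i).map π) D.i₀ ≠ 0 →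
      ∀ β : k,
      (∀ θb : k, ((charQ (fun i j l => (D.P i j l).map π) (fun i => (tA i).map π)).eval
          (C θb)).IsRoot β →
        ((charQ (fun i j l => (D.P i j l).map π) (fun i => (tA i).map π)).eval
          (C θb)).derivative.eval β ≠ 0) →
      ∀ b : D.κ, IsIntegral (Algebra.adjoin k {D.xb}) b →
        ∃ s : k[X], s.eval β ≠ 0 ∧ ∃ u : ι → k[X], aeval D.xb s * b = ev D.xb D.fb u) :
    ∀ b : D.κ, IsIntegral (Algebra.adjoin k {D.xb}) b →
      ∃ u : ι → k[X], b = ev D.xb D.fb u := by
  intro b hb
  have Mb := D.modelb hc hπ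
  have hdetb : powDet (fun i j l => (D.P i j l).map π) (fun i => (tA i).map π) D.i₀ ≠ 0 := by
    rw [powDet_map]
    intro h0
    have h1 := congrArg (fun p => p.coeff (powDet D.P tA D.i₀).natDegree) h0
    simp only [coeff_map, coeff_zero] at h1
    exact (hdet.map π).ne_zero h1
  refine tnorm_of_local Mb hb fun β hβ => ?_
  refine hloc hdetb β ?_ b hb
  intro θb hθb
  rw [charQ_map] at hθb ⊢
  rw [discr_map] at hβ
  exact derivative_eval_ne_zero_of_valuation A π hδ (charQ_monic D.P tA) hunit hβ hθb

end Aside

/-! ### The integral model of a `ModelAt` -/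

section Gauss

variable {K : Type u} [Field K] [IsAlgClosed K] [CharZero K] {k : Type u} [Field k]
  [IsAlgClosed k] [CharZero k] [Algebra k K] {F : Type v} [Field F] [Algebra K F]
  {P : Place K F} {d : ℕ}

theorem isUnit_leadingCoeff_of_valuation {A : ValuationSubring K} {p : A[X]}
    (h : A.valuation (p.map (algebraMap A K)).leadingCoeff = 1) : IsUnit p.leadingCoeff := by
  have hinj : Function.Injective (algebraMap A K) := FaithfulSMul.algebraMap_injective A K
  rw [leadingCoeff_map_of_injective hinj] at h
  exact (ValuationSubring.valuation_eq_one_iff A _).mpr h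

/-- **D4 for one valuation ring**, from the explicit (P6) conditions. -/
theorem normalOut_of_conditions (hL : LocalProp.{u, v}) (M : ModelAt P d)
    {A : ValuationSubring K} (h : Adm k A) (hc : IntegralCond M A) (t : Fin d → K[X])
    (ht : ∀ i n, (t i).coeff n ∈ A)
    (hδ : A.valuation (discr M.PK).leadingCoeff = 1)
    (hdet : A.valuation (powDet M.PK t M.i₀).leadingCoeff = 1)
    (hunit : ∀ β θ₀ : K, (discr M.PK).IsRoot β → ((charQ M.PK t).eval (C θ₀)).IsRoot β →
      A.valuation (((charQ M.PK t).eval (C θ₀)).derivative.eval β) = 1) :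
    letI := gaussAlgebra M hc h
    NormalOut (gaussData M hc) k := by
  letI := gaussAlgebra M hc h
  have hcp := (gaussData M hc).resAlgebra_compat h.π h.π_surj
  -- the integral forms of the K-side data
  obtain ⟨tA, htA⟩ : ∃ tA : Fin d → A[X], ∀ i, (tA i).map (algebraMap A K) = t i :=
    ⟨fun i => liftPoly (t i) (ht i), fun i => liftPoly_map (t i) (ht i)⟩
  have hPK : (fun i j l => ((gaussData M hc).P i j l).map (algebraMap A K)) = M.PK := by
    funext i j l
    exact gaussData_P_map M hc i j l
  have htK : (fun i => (tA i).map (algebraMap A K)) = t := funext htA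
  have hdiscr : (discr (gaussData M hc).P).map (algebraMap A K) = discr M.PK := by
    rw [← discr_map, hPK]
  have hQ : (charQ (gaussData M hc).P tA).map (mapRingHom (algebraMap A K)) = charQ M.PK t := by
    rw [← charQ_map, hPK, htK]
  have hpd : (powDet (gaussData M hc).P tA (gaussData M hc).i₀).map (algebraMap A K) =
      powDet M.PK t M.i₀ := by
    rw [← powDet_map, hPK, htK]
    rfl
  have htn : ∀ b : (gaussData M hc).κ,
      IsIntegral (Algebra.adjoin k {(gaussData M hc).xb}) b →
      ∃ u : Fin d → k[X], b = ev (gaussData M hc).xb (gaussData M hc).fb u := by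
    refine tnorm_of_conditions (gaussData M hc) hcp h.π_surj tA ?_ ?_ ?_ ?_
    · apply isUnit_leadingCoeff_of_valuation
      rw [hdiscr]
      exact hδ
    · apply isUnit_leadingCoeff_of_valuation
      rw [hpd]
      exact hdet
    · intro β θ₀ hβ hθ
      rw [hdiscr] at hβ
      rw [hQ] at hθ ⊢
      exact hunit β θ₀ hβ hθ
    · intro hdetb β hreg b hb
      exact hL k (gaussData M hc).κ d (gaussData M hc).W (gaussData M hc).xb
        (gaussData M hc).fb (gaussData M hc).i₀ _ ((gaussData M hc).modelb hcp h.π_surj) _
        hdetb β hreg b hb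
  refine ⟨htn, ?_⟩
  have hcard : Fintype.card (Fin d) = M.W.d := by rw [Fintype.card_fin, M.W_d]
  have hg := genusFF_eq_of_models (gaussModelb M hc h) M.model hcard htn
    (fun b hb => (M.integral_iff b).mp hb)
  exact hg.ge

/-- **D4 for every sufficiently general valuation ring**: the (P6) Ev-list. -/
theorem ev_normalOut (hL : LocalProp.{u, v}) (M : ModelAt P d) (t : Fin d → K[X])
    (hprim : powDet M.PK t M.i₀ ≠ 0)
    (hreg : ∀ β θ₀ : K, (discr M.PK).IsRoot β → ((charQ M.PK t).eval (C θ₀)).IsRoot β →
      ((charQ M.PK t).eval (C θ₀)).derivative.eval β ≠ 0) :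
    Ev k (fun (A : ValuationSubring K) (h : Adm k A) => ∀ hc : IntegralCond M A,
      letI := gaussAlgebra M hc h
      NormalOut (gaussData M hc) k) := by
  classical
  have hδ0 : discr M.PK ≠ 0 := by
    haveI := M.model.finiteDimensional
    exact M.model.discr_ne_zero_of_charZero M.model.finrank_eq
  have hQ0 : ∀ β : K, (charQ M.PK t).map (evalRingHom β) ≠ 0 := fun β =>
    ((charQ_monic M.PK t).map (evalRingHom β)).ne_zero
  have E1 : Ev k (fun (A : ValuationSubring K) _ => ∀ i n, (t i).coeff n ∈ A) :=
    Ev.forall_finite fun i => ev_coeff_mem (t i)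
  have E2 : Ev k (fun (A : ValuationSubring K) _ =>
      A.valuation (discr M.PK).leadingCoeff = 1) :=
    ev_valuation_eq_one (leadingCoeff_ne_zero.mpr hδ0)
  have E3 : Ev k (fun (A : ValuationSubring K) _ =>
      A.valuation (powDet M.PK t M.i₀).leadingCoeff = 1) :=
    ev_valuation_eq_one (leadingCoeff_ne_zero.mpr hprim)
  have E4 : Ev k (fun (A : ValuationSubring K) _ =>
      ∀ β ∈ (discr M.PK).roots.toFinset,
        ∀ θ₀ ∈ ((charQ M.PK t).map (evalRingHom β)).roots.toFinset,
          A.valuation (((charQ M.PK t).eval (C θ₀)).derivative.eval β) = 1) := by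
    refine Ev.forall_finset _ fun β hβ => Ev.forall_finset _ fun θ₀ hθ₀ => ?_
    refine ev_valuation_eq_one (hreg β θ₀ ?_ ?_)
    · exact (mem_roots hδ0).mp (Multiset.mem_toFinset.mp hβ)
    · rw [IsRoot.def, eval_eval_C_eq]
      exact (mem_roots (hQ0 β)).mp (Multiset.mem_toFinset.mp hθ₀)
  refine ((E1.and E2).and (E3.and E4)).mono fun A h hh hc => ?_
  obtain ⟨⟨h1, h2⟩, h3, h4⟩ := hh
  refine normalOut_of_conditions hL M h hc t h1 h2 h3 fun β θ₀ hβ hθ => ?_
  refine h4 β (Multiset.mem_toFinset.mpr ((mem_roots hδ0).mpr hβ)) θ₀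
    (Multiset.mem_toFinset.mpr ((mem_roots (hQ0 β)).mpr ?_))
  rw [IsRoot.def, ← eval_eval_C_eq]
  exact hθ

end Gauss

/-- **Block D4 from its two halves.** -/
theorem normalProp_of_props (hΘ : ThetaProp.{u, v}) (hL : LocalProp.{u, v}) :
    NormalProp.{u, v} := by
  intro K _ _ _ k _ _ _ _ F _ _ P d M
  obtain ⟨t, hprim, hreg⟩ := hΘ K F P d M
  exact ev_normalOut hL M t hprim hreg

/-- The K-side half (`Normal/Theta.lean`, `Normal/ThetaCharQ.lean`). -/
theorem thetaProp : ThetaProp.{u, v} := by
  intro K _ _ _ F _ _ P d M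
  obtain ⟨t, hprim, -, hreg⟩ :=
    ThetaModel.exists_t_charQ_discr M.model (fun g hg => (M.integral_iff g).mp hg)
  exact ⟨t, hprim, fun β θ₀ hβ hθ => hreg β hβ θ₀ hθ⟩

/-- The k-side half (`Normal/Local.lean`). -/
theorem localProp : LocalProp.{u, v} := by
  intro k _ _ _ L _ _ d W x f i₀ P M t hD β hreg b hb
  exact exists_mul_eq_ev_of_isIntegral M t hD β (fun θ₀ h => hreg θ₀ h) hb

/-- **Block D4**: for every weighted model of `F / K`, the reduction at every sufficiently general
admissible valuation ring is normal and the genus does not drop. -/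
theorem normalProp : NormalProp.{u, v} := normalProp_of_props thetaProp localProp

end Fermat.Agent.S27x.Spec.Normal
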