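import Fermat.Agent.S27x.Spec.GaussNorm.ModelGenus
import Fermat.Agent.S27x.Spec.GaussNorm.Residue

/-!
# P-S27 block D4, (P5): the genus of the reduction of a normal integral Apéry model

`D : GaussNorm.AperyData A F ι` an integral Apéry model of `F / K` over a valuation ring `A` of
`K`, `π : A →+* k` onto the residue field, `κ = D.κ` the residue field of the Gauss valuation.
Both `K` and `k` algebraically closed of characteristic zero, `card ι = D.W.d`.

Hypotheses:
* `hB` : the generic fibre is normal, `B = ⊕ K[x] f_i` is the integral closure of `K[x]` in `F`;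
* `hnorm` : **(T-norm)**, the special fibre is normal, `B̄₀ = ⊕ k[x̄] f̄_i` is the integral closure
  of `k[x̄]` in `κ`.

Results:
* `genusFF_eq` : `genusFF k κ = genusFF K F` (both are the number of gaps of the semigroup of
  the weights);
* `exists_evb_of_isIntegral_of_ord` : `b̄` integral over `k[x̄]` with pole order `≤ N` at the place
  at infinity of `κ` is `ev ū` with `wdeg ū ≤ N`;
* `exists_lift_of_isIntegral_of_ord` : such a `b̄` is the residue of an `ev u`, `u : ι → A[X]`,
  `wdeg u ≤ N` (`L_κ(N P̄)` is the reduction of `(B_A)_{≤ N}`).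
-/

set_option autoImplicit false
set_option linter.unusedSectionVars false

namespace Fermat.Agent.S27x.Spec.Normal.Genus

open Polynomial AlgebraicCurve Fermat.Agent.S27x.Spec.GaussNorm

variable {K : Type*} [Field K] {A : ValuationSubring K} {F : Type*} [Field F] [Algebra K F]
  {ι : Type*} [Fintype ι] (D : AperyData A F ι)
  {k : Type*} [Field k] {π : A →+* k} [Algebra k D.κ]

/-- **(T-genus)**: the reduction of a normal integral Apéry model with normal special fibre has
the same genus. -/
theorem genusFF_eq [IsAlgClosed K] [CharZero K] [IsAlgClosed k] [CharZero k]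
    (hc : D.Compat π) (hπ : Function.Surjective π) (hcard : Fintype.card ι = D.W.d)
    (hB : ∀ g : F, IsIntegral (Algebra.adjoin K {D.x}) g → ∃ u : ι → K[X], g = ev D.x D.f u)
    (hnorm : ∀ b : D.κ, IsIntegral (Algebra.adjoin k {D.xb}) b →
      ∃ u : ι → k[X], b = ev D.xb D.fb u) :
    genusFF k D.κ = genusFF K F :=
  genusFF_eq_of_models (D.modelb hc hπ) D.model hcard hnorm hB

/-- Both genera are the number of gaps of the semigroup of the weights. -/
theorem genusFF_eq_ncard [IsAlgClosed k] [CharZero k]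
    (hc : D.Compat π) (hπ : Function.Surjective π) (hcard : Fintype.card ι = D.W.d)
    (hnorm : ∀ b : D.κ, IsIntegral (Algebra.adjoin k {D.xb}) b →
      ∃ u : ι → k[X], b = ev D.xb D.fb u) :
    genusFF k D.κ = (D.W.semigroupᶜ).ncard :=
  (D.modelb hc hπ).genusFF_eq_ncard hcard hnorm

/-- The genus of the generic fibre of a normal model. -/
theorem genusFF_eq_ncard_generic [IsAlgClosed K] [CharZero K]
    (hcard : Fintype.card ι = D.W.d)
    (hB : ∀ g : F, IsIntegral (Algebra.adjoin K {D.x}) g → ∃ u : ι → K[X], g = ev D.x D.f u) :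
    genusFF K F = (D.W.semigroupᶜ).ncard :=
  D.model.genusFF_eq_ncard hcard hB

/-- Export for D7: on the special fibre, an integral `b̄` with pole order `≤ N` at infinity is
`ev ū` with `wdeg ū ≤ N`. -/
theorem exists_evb_of_isIntegral_of_ord
    (hc : D.Compat π) (hπ : Function.Surjective π) (hcard : Fintype.card ι = D.W.d)
    (hnorm : ∀ b : D.κ, IsIntegral (Algebra.adjoin k {D.xb}) b →
      ∃ u : ι → k[X], b = ev D.xb D.fb u)
    {b : D.κ} (hb : IsIntegral (Algebra.adjoin k {D.xb}) b) {N : ℕ}
    (hN : -(N : ℤ) ≤ (D.modelb hc hπ).inftyPlace.ord b) :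
    ∃ u : ι → k[X], b = ev D.xb D.fb u ∧ D.W.wdeg u ≤ N :=
  (D.modelb hc hπ).exists_ev_of_isIntegral_of_ord hcard hnorm hb hN

/-- Export for D7: `L_κ(N P̄)` is the reduction of `(B_A)_{≤ N}`. -/
theorem exists_lift_of_isIntegral_of_ord
    (hc : D.Compat π) (hπ : Function.Surjective π) (hcard : Fintype.card ι = D.W.d)
    (hnorm : ∀ b : D.κ, IsIntegral (Algebra.adjoin k {D.xb}) b →
      ∃ u : ι → k[X], b = ev D.xb D.fb u)
    {b : D.κ} (hb : IsIntegral (Algebra.adjoin k {D.xb}) b) {N : ℕ}
    (hN : -(N : ℤ) ≤ (D.modelb hc hπ).inftyPlace.ord b) :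
    ∃ u : ι → A[X], D.W.wdeg u ≤ N ∧ D.res ⟨ev D.x D.f u, D.evA_mem u⟩ = b := by
  obtain ⟨ub, rfl, hub⟩ := exists_evb_of_isIntegral_of_ord D hc hπ hcard hnorm hb hN
  obtain ⟨u, hu, -, -, hw⟩ := D.exists_lift (π := π) hπ ub
  refine ⟨u, by rw [hw]; exact hub, ?_⟩
  rw [D.res_ev hc u, hu]

/-- The functions on the special fibre regular off the place at infinity are the elements of
`B̄₀`. -/
theorem mem_regularOff_inftyPlace_iff [IsAlgClosed k] [CharZero k]
    (hc : D.Compat π) (hπ : Function.Surjective π) (hcard : Fintype.card ι = D.W.d)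
    (hnorm : ∀ b : D.κ, IsIntegral (Algebra.adjoin k {D.xb}) b →
      ∃ u : ι → k[X], b = ev D.xb D.fb u) {b : D.κ} :
    b ∈ AperyRR.regularOff (D.modelb hc hπ).inftyPlace ↔ ∃ u : ι → k[X], b = ev D.xb D.fb u :=
  (D.modelb hc hπ).mem_regularOff_inftyPlace_iff hcard hnorm

end Fermat.Agent.S27x.Spec.Normal.Genus
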