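import Mathlib

/-!
# P-S27, block D4: normality of the reduction, abstract form (helper53)

Pure commutative algebra (Mathlib only).  `k` an algebraically closed field, `S` a domain which is
a finite free `k[x]`-algebra (the reduction `B₀bar = ⊕ k[x] f̄_i` of the Apéry model).

* `exists_eq_discr_mul_of_isIntegral` (conductor lemma): `discr(b) • z ∈ S` for every element `z`
  of `Frac S` integral over `S` (Cramer's rule on the trace matrix; no separability needed).
* `isIntegrallyClosed_localization_of_discr_notMem` **(N1)**: `S_m` is integrally closed at every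
  prime `m` not containing the discriminant.
* `isDiscreteValuationRing_localization` **(N2)**: if locally at `x = β` the algebra `S` is
  generated by one element `θ` killed by `Q(x, T)` and all the plane points `(β, c)` of `Q = 0`
  are regular (`∂Q/∂T ≠ 0` or `∂Q/∂x ≠ 0`), then `S_m` is a discrete valuation ring for every
  maximal ideal `m` over `x = β` (Dedekind's criterion for linear factors).
* `isIntegrallyClosed_of_forall_root`: (N1) + (N2) at the roots of the discriminant ⇒ `S` is
  integrally closed.
-/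

set_option autoImplicit false
set_option linter.style.haveILetI false
set_option linter.unusedSectionVars false

namespace Fermat.Agent.S27x.Spec.Normal.LocalAbs

open Polynomial Module nonZeroDivisors


section Conductor

variable {R S : Type*} [CommRing R] [IsDomain R] [IsIntegrallyClosed R] [CommRing S] [IsDomain S]
  [Algebra R S] [FaithfulSMul R S] {ι : Type*} [Fintype ι] [DecidableEq ι] (b : Basis ι R S)

/-- **Conductor lemma.**  `S` a domain, free over the integrally closed domain `R` with basis `b`.
Every element `z` of `Frac S` integral over `S` satisfies `discr(b) • z ∈ S`. -/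
theorem exists_eq_discr_mul_of_isIntegral {L : Type*} [Field L] [Algebra S L] [IsFractionRing S L]
    (z : L) (hz : IsIntegral S z) :
    ∃ y : S, algebraMap S L y = algebraMap S L (algebraMap R S (Algebra.discr R b)) * z := by
  classical
  haveI : Module.Finite R S := Module.Finite.of_basis b
  haveI : Algebra.IsIntegral R S := Algebra.IsIntegral.of_finite R S
  haveI : Algebra.IsAlgebraic R S := inferInstance
  let K := FractionRing R
  letI : Algebra R L := ((algebraMap S L).comp (algebraMap R S)).toAlgebra
  haveI : IsScalarTower R S L := IsScalarTower.of_algebraMap_eq fun _ => rfl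
  haveI : FaithfulSMul R L := by
    rw [faithfulSMul_iff_algebraMap_injective]
    exact (IsFractionRing.injective S L).comp (FaithfulSMul.algebraMap_injective R S)
  letI : Algebra K L := FractionRing.liftAlgebra R L
  haveI : IsScalarTower R K L := inferInstance
  let bL : Basis ι K L := b.localizationLocalization K R⁰ L
  have hbL : ∀ i, bL i = algebraMap S L (b i) := fun i => b.localizationLocalization_apply K R⁰ L i
  haveI : FiniteDimensional K L := Module.Finite.of_basis bL
  -- `z` is integral over `R`
  have hzR : IsIntegral R z := isIntegral_trans z hz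
  -- the traces of `z * b l` lie in `R`
  have ht : ∀ l, ∃ r : R, algebraMap R K r = Algebra.trace K L (z * bL l) := by
    intro l
    have hbl : IsIntegral R (bL l) := by
      rw [hbL]
      exact (Algebra.IsIntegral.isIntegral (R := R) (b l)).map (IsScalarTower.toAlgHom R S L)
    have hint : IsIntegral R (z * bL l) := hzR.mul hbl
    have h1 : IsIntegral R (Algebra.trace K L (z * bL l)) := Algebra.isIntegral_trace hint
    exact IsIntegrallyClosed.isIntegral_iff.mp h1
  choose t ht using ht
  set M : Matrix ι ι R := Algebra.traceMatrix R b with hMdef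
  have hM : Algebra.traceMatrix K bL = (algebraMap R K).mapMatrix M :=
    Algebra.traceMatrix_localizationLocalization R R⁰ L b
  set c : ι → K := fun j => bL.repr z j with hc
  have hzsum : z = ∑ j, c j • bL j := (bL.sum_repr z).symm
  -- `t = c ᵥ* M'`
  have hvec : (fun l => algebraMap R K (t l)) =
      Matrix.vecMul c ((algebraMap R K).mapMatrix M) := by
    funext l
    rw [ht l, ← hM, Matrix.vecMul, dotProduct]
    conv_lhs => rw [hzsum, Finset.sum_mul, map_sum]
    refine Finset.sum_congr rfl fun j _ => ?_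
    rw [smul_mul_assoc, map_smul, smul_eq_mul, Algebra.traceMatrix_apply, Algebra.traceForm_apply]
  -- Cramer
  have hcramer : ∀ j, algebraMap R K (Algebra.discr R b) * c j =
      algebraMap R K (∑ l, t l * (Matrix.adjugate M) l j) := by
    intro j
    have h1 : Matrix.vecMul (Matrix.vecMul c ((algebraMap R K).mapMatrix M))
        (Matrix.adjugate ((algebraMap R K).mapMatrix M)) =
        ((algebraMap R K).mapMatrix M).det • c := by
      rw [Matrix.vecMul_vecMul, Matrix.mul_adjugate, Matrix.vecMul_smul, Matrix.vecMul_one]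
    have h2 := congrFun h1 j
    rw [← hvec, Pi.smul_apply, smul_eq_mul, ← RingHom.map_det, ← Algebra.discr_def] at h2
    rw [← h2, Matrix.vecMul, dotProduct, map_sum]
    refine Finset.sum_congr rfl fun l _ => ?_
    rw [map_mul, ← RingHom.map_adjugate, RingHom.mapMatrix_apply, Matrix.map_apply]
  refine ⟨∑ j, (∑ l, t l * (Matrix.adjugate M) l j) • b j, ?_⟩
  rw [map_sum]
  conv_rhs => rw [hzsum, Finset.mul_sum]
  refine Finset.sum_congr rfl fun j _ => ?_
  rw [Algebra.smul_def, map_mul, ← hbL, ← IsScalarTower.algebraMap_apply R S L,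
    IsScalarTower.algebraMap_apply R K L, ← hcramer j, ← IsScalarTower.algebraMap_apply R S L,
    IsScalarTower.algebraMap_apply R K L, Algebra.smul_def, map_mul]
  ring

/-- **(N1)** `S` a domain, free over the integrally closed domain `R` with basis `b`.  At every
prime `m` of `S` not containing the discriminant of `b`, the localization `S_m` is integrally
closed. -/
theorem isIntegrallyClosed_localization_of_discr_notMem (m : Ideal S) [m.IsPrime]
    (hδ : algebraMap R S (Algebra.discr R b) ∉ m) :
    IsIntegrallyClosed (Localization.AtPrime m) := by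
  let Sm := Localization.AtPrime m
  let L := FractionRing S
  let g : Sm →+* L :=
    IsLocalization.map _ (T := S⁰) (RingHom.id S) m.primeCompl_le_nonZeroDivisors
  letI := g.toAlgebra
  have : IsScalarTower S Sm L := IsScalarTower.of_algebraMap_eq'
    (by rw [RingHom.algebraMap_toAlgebra, IsLocalization.map_comp, RingHomCompTriple.comp_eq])
  have := IsFractionRing.isFractionRing_of_isDomain_of_isLocalization m.primeCompl Sm L
  refine (isIntegrallyClosed_iff L).mpr fun {x} hx => ?_
  obtain ⟨⟨y, y_mem⟩, hy⟩ := hx.exists_multiple_integral_of_isLocalization m.primeCompl _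
  obtain ⟨w, hw⟩ := exists_eq_discr_mul_of_isIntegral b _ hy
  have hd : algebraMap R S (Algebra.discr R b) * y ∈ m.primeCompl := by
    intro h
    rcases Ideal.IsPrime.mem_or_mem inferInstance h with h | h
    · exact hδ h
    · exact y_mem h
  refine ⟨IsLocalization.mk' Sm w ⟨_, hd⟩, ?_⟩
  have h1 := congrArg (algebraMap Sm L)
    (IsLocalization.mk'_spec Sm w (⟨_, hd⟩ : m.primeCompl))
  rw [map_mul, ← IsScalarTower.algebraMap_apply S Sm L, ← IsScalarTower.algebraMap_apply S Sm L,
    hw] at h1
  have hne : algebraMap S L (algebraMap R S (Algebra.discr R b) * y) ≠ 0 := by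
    rw [Ne, map_eq_zero_iff _ (IsFractionRing.injective S L)]
    intro h0
    exact hd (h0 ▸ m.zero_mem)
  apply mul_right_cancel₀ hne
  rw [h1, map_mul, Submonoid.smul_def, Algebra.smul_def]
  ring

end Conductor



section PlanePoint

variable {k : Type*} [Field k] {S : Type*} [CommRing S] [Algebra k[X] S]

/-- `Q(x, c)(β) = Q(β, T)(c)`. -/
theorem eval_eval_C (F : k[X][X]) (β c : k) :
    (F.eval (C c)).eval β = (F.map (evalRingHom β)).eval c := by
  rw [eval_map, ← coe_evalRingHom, eval, Polynomial.hom_eval₂]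
  simp

/-- Congruence decomposition: `F(x, θ) = F(β, c) + (x - β) u + (θ - c) v`. -/
theorem exists_aeval_eq (F : k[X][X]) (β c : k) (θ : S) :
    ∃ u v : S, aeval θ F = algebraMap k[X] S (C ((F.map (evalRingHom β)).eval c)) +
      algebraMap k[X] S (X - C β) * u + (θ - algebraMap k[X] S (C c)) * v := by
  obtain ⟨F₁, hF₁⟩ := X_sub_C_dvd_sub_C_eval (a := (C c : k[X])) (p := F)
  obtain ⟨f₁, hf₁⟩ := X_sub_C_dvd_sub_C_eval (a := β) (p := F.eval (C c))
  refine ⟨algebraMap k[X] S f₁, aeval θ F₁, ?_⟩
  have h1 : F = (X - C (C c)) * F₁ + C (F.eval (C c)) := by rw [← hF₁]; ring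
  have h2 : F.eval (C c) = (X - C β) * f₁ + C ((F.eval (C c)).eval β) := by rw [← hf₁]; ring
  conv_lhs => rw [h1]
  rw [map_add, map_mul, map_sub, aeval_X, aeval_C, aeval_C]
  conv_lhs => rw [h2]
  rw [map_add, map_mul, eval_eval_C]
  ring

end PlanePoint

section N2

variable {k : Type*} [Field k] [IsAlgClosed k] {S : Type*} [CommRing S] [IsDomain S]
  [Algebra k[X] S] [Module.Finite k[X] S] [FaithfulSMul k[X] S]
  (β : k) (m : Ideal S) [hm : m.IsMaximal] (hβm : algebraMap k[X] S (X - C β) ∈ m)

include hβm in
/-- The residue field of `S` at a maximal ideal over `x = β` is `k`. -/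
theorem exists_sub_C_mem (s : S) : ∃ c : k, s - algebraMap k[X] S (C c) ∈ m := by
  letI : Field (S ⧸ m) := Ideal.Quotient.field m
  let π : S →+* S ⧸ m := Ideal.Quotient.mk m
  let ψ : k →+* S ⧸ m := π.comp ((algebraMap k[X] S).comp C)
  letI : Algebra k (S ⧸ m) := ψ.toAlgebra
  have hcomp : (algebraMap k (S ⧸ m)).comp (evalRingHom β) = π.comp (algebraMap k[X] S) := by
    apply Polynomial.ringHom_ext
    · intro a
      simp [RingHom.algebraMap_toAlgebra, ψ]
    · have h0 : π (algebraMap k[X] S (X - C β)) = 0 := Ideal.Quotient.eq_zero_iff_mem.mpr hβm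
      rw [map_sub, map_sub, sub_eq_zero] at h0
      simp only [RingHom.comp_apply, coe_evalRingHom, eval_X, RingHom.algebraMap_toAlgebra, ψ]
      exact h0.symm
  have hint : Algebra.IsIntegral k (S ⧸ m) := by
    refine ⟨fun y => ?_⟩
    obtain ⟨s', rfl⟩ := Ideal.Quotient.mk_surjective y
    exact (Algebra.IsIntegral.isIntegral (R := k[X]) s').map_of_comp_eq (evalRingHom β) π hcomp
  obtain ⟨c, hc⟩ := (IsAlgClosed.algebraMap_bijective_of_isIntegral (k := k) (K := S ⧸ m)).2 (π s)
  refine ⟨c, Ideal.Quotient.eq_zero_iff_mem.mp ?_⟩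
  rw [map_sub, ← hc]
  simp [RingHom.algebraMap_toAlgebra, ψ, π]

omit [IsAlgClosed k] [IsDomain S] [Module.Finite k[X] S] [FaithfulSMul k[X] S] in
/-- nonzero constants are not in `m` -/
theorem algebraMap_C_notMem {c : k} (hc : c ≠ 0) : algebraMap k[X] S (C c) ∉ m := by
  intro h
  apply hm.ne_top
  rw [Ideal.eq_top_iff_one]
  have h1 : algebraMap k[X] S (C c⁻¹) * algebraMap k[X] S (C c) = 1 := by
    rw [← map_mul, ← C_mul, inv_mul_cancel₀ hc, C_1, map_one]
  rw [← h1]
  exact m.mul_mem_left _ h

omit [IsAlgClosed k] [IsDomain S] [Module.Finite k[X] S] [FaithfulSMul k[X] S] in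
/-- a constant lying in `m` is zero -/
theorem eq_zero_of_algebraMap_C_mem {c : k} (h : algebraMap k[X] S (C c) ∈ m) : c = 0 := by
  by_contra hc
  exact algebraMap_C_notMem m hc h

omit [IsAlgClosed k] [IsDomain S] [Module.Finite k[X] S] [FaithfulSMul k[X] S] in
include hβm in
/-- polynomials not vanishing at `β` are not in `m` -/
theorem algebraMap_notMem_of_eval_ne_zero {r : k[X]} (hr : r.eval β ≠ 0) :
    algebraMap k[X] S r ∉ m := by
  intro h
  obtain ⟨r₁, hr₁⟩ := X_sub_C_dvd_sub_C_eval (a := β) (p := r)
  have h2 : r = (X - C β) * r₁ + C (r.eval β) := by rw [← hr₁]; ring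
  rw [h2, map_add, map_mul] at h
  have h3 : algebraMap k[X] S (C (r.eval β)) ∈ m :=
    (Ideal.add_mem_iff_right m (m.mul_mem_right _ hβm)).mp h
  exact hr (eq_zero_of_algebraMap_C_mem m h3)

variable (θ : S) (Q : k[X][X]) (hQ : aeval θ Q = 0)
  (hgen : ∀ s : S, ∃ r : k[X], r.eval β ≠ 0 ∧
    algebraMap k[X] S r * s ∈ Algebra.adjoin k[X] {θ})
  (hreg : ∀ c : k, (Q.map (evalRingHom β)).IsRoot c →
    (derivative (Q.map (evalRingHom β))).eval c ≠ 0 ∨ (derivative (Q.eval (C c))).eval β ≠ 0)

omit [IsAlgClosed k] [IsDomain S] [Module.Finite k[X] S] [FaithfulSMul k[X] S] in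
include hβm hgen in
/-- Local generation of `m` by `x - β` and `θ - c₀`. -/
theorem exists_mul_eq_of_mem {c₀ : k} (hc₀ : θ - algebraMap k[X] S (C c₀) ∈ m) {b : S}
    (hb : b ∈ m) : ∃ (r : k[X]) (u v : S), r.eval β ≠ 0 ∧
      algebraMap k[X] S r * b =
        algebraMap k[X] S (X - C β) * u + (θ - algebraMap k[X] S (C c₀)) * v := by
  obtain ⟨r, hr, hrb⟩ := hgen b
  rw [Algebra.adjoin_singleton_eq_range_aeval] at hrb
  obtain ⟨F, hF⟩ := hrb
  obtain ⟨u, v, huv⟩ := exists_aeval_eq F β c₀ θ
  refine ⟨r, u, v, hr, ?_⟩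
  have hF' : aeval θ F = algebraMap k[X] S r * b := hF
  have hmem : algebraMap k[X] S (C ((F.map (evalRingHom β)).eval c₀)) ∈ m := by
    have h1 : algebraMap k[X] S (C ((F.map (evalRingHom β)).eval c₀)) =
        algebraMap k[X] S r * b - algebraMap k[X] S (X - C β) * u -
          (θ - algebraMap k[X] S (C c₀)) * v := by
      rw [← hF', huv]; ring
    rw [h1]
    exact m.sub_mem (m.sub_mem (m.mul_mem_left _ hb) (m.mul_mem_right _ hβm))
      (m.mul_mem_right _ hc₀)
  have h0 := eq_zero_of_algebraMap_C_mem m hmem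
  rw [← hF', huv, h0, C_0, map_zero, zero_add]

include hβm hQ hgen hreg in
/-- **Key local statement**: `m` is locally principal. -/
theorem exists_generator : ∃ g ∈ m, g ≠ 0 ∧ ∀ b ∈ m, ∃ u : S, u ∉ m ∧ u * b ∈ Ideal.span {g} := by
  obtain ⟨c₀, hc₀⟩ := exists_sub_C_mem β m hβm θ
  -- `(β, c₀)` is a point of the curve
  obtain ⟨u₀, v₀, h₀⟩ := exists_aeval_eq Q β c₀ θ
  have hroot : (Q.map (evalRingHom β)).eval c₀ = 0 := by
    apply eq_zero_of_algebraMap_C_mem m
    have h1 : algebraMap k[X] S (C ((Q.map (evalRingHom β)).eval c₀)) =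
        - (algebraMap k[X] S (X - C β) * u₀) - (θ - algebraMap k[X] S (C c₀)) * v₀ := by
      have := h₀
      rw [hQ] at this
      linear_combination -this
    rw [h1]
    exact m.sub_mem (m.neg_mem (m.mul_mem_right _ hβm)) (m.mul_mem_right _ hc₀)
  -- Taylor expansion in `T` at `c₀`
  obtain ⟨G, hG⟩ := X_sub_C_dvd_sub_C_eval (a := (C c₀ : k[X])) (p := Q)
  have hQG : Q = (X - C (C c₀)) * G + C (Q.eval (C c₀)) := by rw [← hG]; ring
  -- `Q(x, c₀) = (x - β) h`
  have hq0 : (Q.eval (C c₀)).eval β = 0 := by rw [eval_eval_C]; exact hroot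
  obtain ⟨h, hh⟩ := dvd_iff_isRoot.mpr hq0
  -- the basic relation `(θ - c₀) G(θ) = - (x - β) h(x)`
  have hrel : (θ - algebraMap k[X] S (C c₀)) * aeval θ G =
      - (algebraMap k[X] S (X - C β) * algebraMap k[X] S h) := by
    have h1 : aeval θ Q = (θ - algebraMap k[X] S (C c₀)) * aeval θ G +
        algebraMap k[X] S (Q.eval (C c₀)) := by
      conv_lhs => rw [hQG]
      rw [map_add, map_mul, map_sub, aeval_X, aeval_C, aeval_C]
    rw [hQ, hh, map_mul] at h1
    linear_combination -h1
  have hx0 : algebraMap k[X] S (X - C β) ≠ 0 := by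
    rw [Ne, map_eq_zero_iff _ (FaithfulSMul.algebraMap_injective k[X] S)]
    exact X_sub_C_ne_zero β
  rcases hreg c₀ hroot with hT | hx
  · -- `∂Q/∂T ≠ 0`: generator `x - β`
    have hGval : (G.map (evalRingHom β)).eval c₀ ≠ 0 := by
      have h2 : Q.map (evalRingHom β) =
          (X - C c₀) * G.map (evalRingHom β) + C ((Q.eval (C c₀)).eval β) := by
        conv_lhs => rw [hQG]
        simp [Polynomial.map_add, Polynomial.map_mul, Polynomial.map_sub]
      rw [h2, hq0, C_0, add_zero, derivative_mul, eval_add, eval_mul, eval_mul] at hT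
      simpa using hT
    obtain ⟨u₁, v₁, h₁⟩ := exists_aeval_eq G β c₀ θ
    have hGm : aeval θ G ∉ m := by
      intro hmem
      apply hGval
      apply eq_zero_of_algebraMap_C_mem m
      have h3 : algebraMap k[X] S (C ((G.map (evalRingHom β)).eval c₀)) =
          aeval θ G - algebraMap k[X] S (X - C β) * u₁ -
            (θ - algebraMap k[X] S (C c₀)) * v₁ := by rw [h₁]; ring
      rw [h3]
      exact m.sub_mem (m.sub_mem hmem (m.mul_mem_right _ hβm)) (m.mul_mem_right _ hc₀)
    refine ⟨algebraMap k[X] S (X - C β), hβm, hx0, fun b hb => ?_⟩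
    obtain ⟨r, u, v, hr, hrb⟩ := exists_mul_eq_of_mem β m hβm θ hgen hc₀ hb
    refine ⟨aeval θ G * algebraMap k[X] S r, ?_, ?_⟩
    · intro hmem
      rcases hm.isPrime.mem_or_mem hmem with h' | h'
      · exact hGm h'
      · exact algebraMap_notMem_of_eval_ne_zero β m hβm hr h'
    · rw [Ideal.mem_span_singleton']
      refine ⟨aeval θ G * u - algebraMap k[X] S h * v, ?_⟩
      rw [mul_assoc, hrb]
      linear_combination (-v) * hrel
  · -- `∂Q/∂x ≠ 0`: generator `θ - c₀`
    have hhval : h.eval β ≠ 0 := by
      rw [hh, derivative_mul, eval_add, eval_mul, eval_mul] at hx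
      simpa using hx
    have hθ0 : θ - algebraMap k[X] S (C c₀) ≠ 0 := by
      intro h0
      rw [h0, zero_mul] at hrel
      have h4 : algebraMap k[X] S (X - C β) * algebraMap k[X] S h = 0 := by
        linear_combination hrel
      rcases mul_eq_zero.mp h4 with h5 | h5
      · exact hx0 h5
      · rw [map_eq_zero_iff _ (FaithfulSMul.algebraMap_injective k[X] S)] at h5
        rw [h5, eval_zero] at hhval
        exact hhval rfl
    refine ⟨θ - algebraMap k[X] S (C c₀), hc₀, hθ0, fun b hb => ?_⟩
    obtain ⟨r, u, v, hr, hrb⟩ := exists_mul_eq_of_mem β m hβm θ hgen hc₀ hb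
    refine ⟨algebraMap k[X] S h * algebraMap k[X] S r, ?_, ?_⟩
    · intro hmem
      rcases hm.isPrime.mem_or_mem hmem with h' | h'
      · exact algebraMap_notMem_of_eval_ne_zero β m hβm hhval h'
      · exact algebraMap_notMem_of_eval_ne_zero β m hβm hr h'
    · rw [Ideal.mem_span_singleton']
      refine ⟨algebraMap k[X] S h * v - aeval θ G * u, ?_⟩
      rw [mul_assoc, hrb]
      linear_combination (-u) * hrel

include hβm hQ hgen hreg in
/-- **(N2)** At a maximal ideal `m` over `x = β` all of whose plane points `(β, c)` on `Q = 0` are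
regular, the localization `S_m` is a discrete valuation ring. -/
theorem isDiscreteValuationRing_localization :
    IsDiscreteValuationRing (Localization.AtPrime m) := by
  obtain ⟨g, hgm, hg0, hgen'⟩ := exists_generator β m hβm θ Q hQ hgen hreg
  haveI : IsNoetherianRing S := IsNoetherianRing.of_finite k[X] S
  let Sm := Localization.AtPrime m
  haveI : IsNoetherianRing Sm := IsLocalization.isNoetherianRing m.primeCompl Sm inferInstance
  have hinj : Function.Injective (algebraMap S Sm) :=
    IsLocalization.injective Sm m.primeCompl_le_nonZeroDivisors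
  have hmax : IsLocalRing.maximalIdeal Sm = Ideal.span {algebraMap S Sm g} := by
    rw [← Localization.AtPrime.map_eq_maximalIdeal]
    apply le_antisymm
    · rw [Ideal.map_le_iff_le_comap]
      intro b hb
      obtain ⟨u, hu, hub⟩ := hgen' b hb
      rw [Ideal.mem_comap]
      obtain ⟨w, hw⟩ := Ideal.mem_span_singleton'.mp hub
      have hunit : IsUnit (algebraMap S Sm u) :=
        IsLocalization.map_units Sm (⟨u, hu⟩ : m.primeCompl)
      obtain ⟨u', hu'⟩ := hunit.exists_left_inv
      rw [Ideal.mem_span_singleton']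
      refine ⟨u' * algebraMap S Sm w, ?_⟩
      have h1 : algebraMap S Sm u * algebraMap S Sm b = algebraMap S Sm w * algebraMap S Sm g := by
        rw [← map_mul, ← map_mul, hw]
      calc u' * algebraMap S Sm w * algebraMap S Sm g
          = u' * (algebraMap S Sm u * algebraMap S Sm b) := by rw [h1]; ring
        _ = (u' * algebraMap S Sm u) * algebraMap S Sm b := by ring
        _ = algebraMap S Sm b := by rw [hu', one_mul]
    · rw [Ideal.span_le, Set.singleton_subset_iff]
      exact Ideal.mem_map_of_mem _ hgm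
  have hnf : ¬ IsField Sm := by
    rw [IsLocalRing.isField_iff_maximalIdeal_eq, hmax, Ideal.span_singleton_eq_bot]
    rw [map_eq_zero_iff _ hinj]
    exact hg0
  have hP : (IsLocalRing.maximalIdeal Sm).IsPrincipal := ⟨⟨algebraMap S Sm g, hmax⟩⟩
  have h := (IsDiscreteValuationRing.TFAE Sm hnf).out 0 4
  exact h.mpr hP

end N2

section LocalStatement

variable {k : Type*} [Field k] [IsAlgClosed k] {S : Type*} [CommRing S] [IsDomain S]
  [Algebra k[X] S] [Module.Finite k[X] S] [FaithfulSMul k[X] S]
  (β : k) (θ : S) (Q : k[X][X]) (hQ : aeval θ Q = 0)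
  (hgen : ∀ s : S, ∃ r : k[X], r.eval β ≠ 0 ∧
    algebraMap k[X] S r * s ∈ Algebra.adjoin k[X] {θ})
  (hreg : ∀ c : k, (Q.map (evalRingHom β)).IsRoot c →
    (derivative (Q.map (evalRingHom β))).eval c ≠ 0 ∨ (derivative (Q.eval (C c))).eval β ≠ 0)

include hQ hgen hreg in
/-- **Local statement at `x = β`** (the hypothesis `hloc` of the gluing lemma): under the
hypotheses of (N2) at `β`, every element `z` of `Frac S` integral over `S` has a denominator
`s ∈ k[x]` with `s(β) ≠ 0`. -/
theorem exists_eval_ne_zero_mul_mem_of_isIntegral {L : Type*} [Field L] [Algebra S L]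
    [IsFractionRing S L] (z : L) (hz : IsIntegral S z) :
    ∃ s : k[X], s.eval β ≠ 0 ∧
      ∃ y : S, algebraMap S L y = algebraMap S L (algebraMap k[X] S s) * z := by
  haveI : Algebra.IsIntegral k[X] S := Algebra.IsIntegral.of_finite k[X] S
  -- the conductor of `z` in `S`
  let J : Ideal S :=
    { carrier := {a | ∃ y : S, algebraMap S L y = algebraMap S L a * z}
      add_mem' := by
        rintro a a' ⟨y, hy⟩ ⟨y', hy'⟩
        exact ⟨y + y', by rw [map_add, map_add, add_mul, hy, hy']⟩
      zero_mem' := ⟨0, by rw [map_zero, zero_mul]⟩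
      smul_mem' := by
        rintro c a ⟨y, hy⟩
        exact ⟨c * y, by rw [smul_eq_mul, map_mul, map_mul, mul_assoc, hy]⟩ }
  let p : Ideal k[X] := Ideal.span {X - C β}
  haveI hpmax : p.IsMaximal :=
    PrincipalIdealRing.isMaximal_of_irreducible (irreducible_X_sub_C β)
  by_contra hcon
  have hcon' : ∀ s : k[X], s.eval β ≠ 0 → algebraMap k[X] S s ∉ J := by
    intro s hs hmem
    exact hcon ⟨s, hs, hmem⟩
  have hJp : J.comap (algebraMap k[X] S) ≤ p := by
    intro s hs
    rw [Ideal.mem_comap] at hs
    by_contra hsp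
    apply hcon' s _ hs
    intro h0
    exact hsp (Ideal.mem_span_singleton.mpr (dvd_iff_isRoot.mpr h0))
  obtain ⟨m, hJm, hmprime, hmp⟩ := Ideal.exists_ideal_over_prime_of_isIntegral p J hJp
  haveI : m.IsPrime := hmprime
  haveI hmmax : m.IsMaximal :=
    Ideal.isMaximal_of_isIntegral_of_isMaximal_comap m (by rw [hmp]; exact hpmax)
  have hβm : algebraMap k[X] S (X - C β) ∈ m := by
    have : X - C β ∈ m.comap (algebraMap k[X] S) := by
      rw [hmp]
      exact Ideal.mem_span_singleton_self _
    exact this
  -- `S_m` is a DVR, hence integrally closed, so `z ∈ S_m`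
  haveI : IsDiscreteValuationRing (Localization.AtPrime m) :=
    isDiscreteValuationRing_localization β m hβm θ Q hQ hgen hreg
  let Sm := Localization.AtPrime m
  let g : Sm →+* L :=
    IsLocalization.lift (M := m.primeCompl) (g := algebraMap S L) (fun y => by
      have hy0 : (y : S) ≠ 0 := fun h0 => y.2 (h0 ▸ m.zero_mem)
      exact (map_ne_zero_iff _ (IsFractionRing.injective S L)).mpr hy0 |>.isUnit)
  letI := g.toAlgebra
  have : IsScalarTower S Sm L := IsScalarTower.of_algebraMap_eq'
    (by rw [RingHom.algebraMap_toAlgebra, IsLocalization.lift_comp])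
  have := IsFractionRing.isFractionRing_of_isDomain_of_isLocalization m.primeCompl Sm L
  have hzm : IsIntegral Sm z := hz.tower_top
  obtain ⟨w, hw⟩ := (isIntegrallyClosed_iff L).mp inferInstance hzm
  obtain ⟨⟨a, d⟩, had⟩ := IsLocalization.surj m.primeCompl w
  -- `d * z = a` in `L`, so `d ∈ J`, but `d ∉ m ⊇ J`
  have hdJ : (d : S) ∈ J := by
    refine ⟨a, ?_⟩
    have h1 := congrArg (algebraMap Sm L) had
    rw [map_mul, hw, ← IsScalarTower.algebraMap_apply S Sm L,
      ← IsScalarTower.algebraMap_apply S Sm L] at h1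
    rw [← h1, mul_comm]
  exact d.2 (hJm hdJ)

end LocalStatement


section Normal

variable {k : Type*} [Field k] [IsAlgClosed k] {S : Type*} [CommRing S] [IsDomain S]
  [Algebra k[X] S] [FaithfulSMul k[X] S] {ι : Type*} [Fintype ι] [DecidableEq ι]
  (b : Basis ι k[X] S)

include b in
/-- Every maximal ideal of `S` lies over some `x = β`. -/
theorem exists_X_sub_C_mem (m : Ideal S) [hm : m.IsMaximal] :
    ∃ β : k, algebraMap k[X] S (X - C β) ∈ m := by
  haveI : Module.Finite k[X] S := Module.Finite.of_basis b
  haveI : Algebra.IsIntegral k[X] S := Algebra.IsIntegral.of_finite k[X] S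
  have hp : (m.comap (algebraMap k[X] S)).IsMaximal :=
    Ideal.isMaximal_comap_of_isIntegral_of_isMaximal m
  set p := m.comap (algebraMap k[X] S) with hpdef
  obtain ⟨f, hf⟩ := (IsPrincipalIdealRing.principal p).principal
  have hf' : p = Ideal.span {f} := hf
  have hf0 : f ≠ 0 := by
    rintro rfl
    rw [Ideal.span_singleton_eq_bot.mpr rfl] at hf'
    rw [hf'] at hp
    exact Polynomial.not_isField k (Ring.isField_iff_maximal_bot.mpr hp)
  have hfu : ¬ IsUnit f := by
    intro hu
    apply hp.ne_top
    rw [hf', Ideal.span_singleton_eq_top]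
    exact hu
  have hdeg : f.degree ≠ 0 := by
    intro h0
    apply hfu
    rw [Polynomial.isUnit_iff_degree_eq_zero]
    exact h0
  obtain ⟨β, hβ⟩ := IsAlgClosed.exists_root f hdeg
  refine ⟨β, ?_⟩
  have hle : p ≤ Ideal.span {X - C β} := by
    rw [hf', Ideal.span_singleton_le_span_singleton]
    exact dvd_iff_isRoot.mpr hβ
  have hne : Ideal.span {X - C β} ≠ (⊤ : Ideal k[X]) := by
    rw [Ne, Ideal.span_singleton_eq_top]
    exact Polynomial.not_isUnit_X_sub_C β
  have heq : p = Ideal.span {X - C β} := hp.eq_of_le hne hle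
  have hmem : X - C β ∈ p := by
    rw [heq]
    exact Ideal.mem_span_singleton_self _
  exact hmem

/-- **Normality criterion** (N1) + (N2): `S` a domain, free of finite rank over `k[x]` with basis
`b`; if at every root `β` of the discriminant of `b` the algebra `S` is locally generated by one
element `θ` satisfying a plane equation `Q(x, θ) = 0` all of whose points over `x = β` are
regular, then `S` is integrally closed. -/
theorem isIntegrallyClosed_of_forall_root
    (h : ∀ β : k, (Algebra.discr k[X] b).eval β = 0 →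
      ∃ (θ : S) (Q : k[X][X]), aeval θ Q = 0 ∧
        (∀ s : S, ∃ r : k[X], r.eval β ≠ 0 ∧
          algebraMap k[X] S r * s ∈ Algebra.adjoin k[X] {θ}) ∧
        (∀ c : k, (Q.map (evalRingHom β)).IsRoot c →
          (derivative (Q.map (evalRingHom β))).eval c ≠ 0 ∨
            (derivative (Q.eval (C c))).eval β ≠ 0)) :
    IsIntegrallyClosed S := by
  haveI : Module.Finite k[X] S := Module.Finite.of_basis b
  refine IsIntegrallyClosed.of_localization_maximal fun m _ hm => ?_
  obtain ⟨β, hβm⟩ := exists_X_sub_C_mem b m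
  by_cases hδ : (Algebra.discr k[X] b).eval β = 0
  · obtain ⟨θ, Q, hQ, hgen, hreg⟩ := h β hδ
    haveI : IsDiscreteValuationRing (Localization.AtPrime m) :=
      isDiscreteValuationRing_localization β m hβm θ Q hQ hgen hreg
    infer_instance
  · exact isIntegrallyClosed_localization_of_discr_notMem b m
      (algebraMap_notMem_of_eval_ne_zero β m hβm hδ)

end Normal

end Fermat.Agent.S27x.Spec.Normal.LocalAbs
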