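import Mathlib

/-!
# P-S27 block D4 (P2'): primitivity of `θ` from a simple zero of a norm

Setting: `K ⊆ K(x) ⊆ F` with `x` transcendental over `K` and `F / K(x)` finite.  If for some
`c : K` the norm `N_{F/K(x)}(θ - c)` is a polynomial `N(x)` which has a *simple* zero at some
`β : K`, then `θ` is a primitive element of `F / K(x)`:
`N_{F/K(x)}(θ - c) = N_{E/K(x)}(θ - c) ^ [F : E]` for `E = K(x)(θ)`, the inner norm is again a
polynomial in `x` (`K[x]` is integrally closed), and a polynomial with a simple zero is not a proper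
power.  No separability, no integrality of `θ` is needed.
-/

set_option autoImplicit false
set_option linter.unusedSectionVars false
set_option linter.style.haveILetI false

noncomputable section

namespace Fermat.Agent.S27x.Spec.Normal.Primitive

open Polynomial IntermediateField Module
open scoped IntermediateField.algebraAdjoinAdjoin

variable {K F : Type*} [Field K] [Field F] [Algebra K F] {x : F}

/-- Polynomials in the generator of `K(x)` map to polynomials in `x`. -/
theorem algebraMap_aeval_gen' (p : K[X]) :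
    algebraMap K⟮x⟯ F (aeval (AdjoinSimple.gen K x) p) = aeval x p := by
  rw [← aeval_algebraMap_apply, AdjoinSimple.algebraMap_gen]

/-- For `x` transcendental, `p ↦ p(gen)` is injective. -/
theorem aeval_gen_injective (hx : Transcendental K x) :
    Function.Injective (aeval (AdjoinSimple.gen K x) : K[X] →ₐ[K] K⟮x⟯) := by
  intro p q hpq
  have h := congrArg (algebraMap K⟮x⟯ F) hpq
  rw [algebraMap_aeval_gen', algebraMap_aeval_gen'] at h
  exact transcendental_iff_injective.mp hx h

/-- `K[x]` is integrally closed when `x` is transcendental. -/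
theorem isIntegrallyClosed_adjoin_of_transcendental (hx : Transcendental K x) :
    IsIntegrallyClosed (Algebra.adjoin K {x}) := by
  have hinj : Function.Injective (aeval x : K[X] →ₐ[K] F) :=
    transcendental_iff_injective.mp hx
  have hrange : (aeval x : K[X] →ₐ[K] F).range = Algebra.adjoin K {x} :=
    (Algebra.adjoin_singleton_eq_range_aeval K x).symm
  let e : K[X] ≃ₐ[K] Algebra.adjoin K {x} :=
    (AlgEquiv.ofInjective _ hinj).trans (Subalgebra.equivOfEq _ _ hrange)
  haveI : IsPrincipalIdealRing (Algebra.adjoin K {x}) :=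
    IsPrincipalIdealRing.of_surjective e.toRingEquiv.toRingHom e.surjective
  infer_instance

/-- An element of `K(x)` integral over `K[x]` is a polynomial in `x`. -/
theorem exists_aeval_gen_eq_of_isIntegral' (hx : Transcendental K x) {c : K⟮x⟯}
    (hc : IsIntegral (Algebra.adjoin K {x}) c) :
    ∃ t : K[X], aeval (AdjoinSimple.gen K x) t = c := by
  haveI := isIntegrallyClosed_adjoin_of_transcendental hx
  obtain ⟨y, hy⟩ := (IsIntegrallyClosed.isIntegral_iff (R := Algebra.adjoin K {x})
    (K := K⟮x⟯)).mp hc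
  have h1 : (y : F) ∈ (aeval x : K[X] →ₐ[K] F).range := by
    rw [← Algebra.adjoin_singleton_eq_range_aeval]
    exact y.2
  obtain ⟨t, ht⟩ := h1
  refine ⟨t, ?_⟩
  apply (algebraMap K⟮x⟯ F).injective
  rw [algebraMap_aeval_gen', ← hy]
  exact ht

/-- An element of `K(x)` one of whose positive powers is a polynomial in `x` is itself a
polynomial in `x`. -/
theorem exists_aeval_gen_eq_of_pow_eq (hx : Transcendental K x) {n₀ : K⟮x⟯} {r : ℕ} (hr : r ≠ 0)
    (N : K[X]) (h : n₀ ^ r = aeval (AdjoinSimple.gen K x) N) :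
    ∃ M : K[X], aeval (AdjoinSimple.gen K x) M = n₀ := by
  apply exists_aeval_gen_eq_of_isIntegral' hx
  have hmem : aeval x N ∈ Algebra.adjoin K {x} := by
    rw [Algebra.adjoin_singleton_eq_range_aeval]
    exact ⟨N, rfl⟩
  refine ⟨X ^ r - C (⟨aeval x N, hmem⟩ : Algebra.adjoin K {x}), monic_X_pow_sub_C _ hr, ?_⟩
  rw [eval₂_sub, eval₂_X_pow, eval₂_C, h, sub_eq_zero]
  apply (algebraMap K⟮x⟯ F).injective
  rw [algebraMap_aeval_gen']
  rfl

/-- A polynomial with a root at `β` whose derivative does not vanish at `β` is not an `r`-th power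
for `r ≥ 2`. -/
theorem eq_one_of_pow_eq_of_derivative_ne_zero {N M : K[X]} {r : ℕ} (hr : r ≠ 0)
    (hNM : N = M ^ r) {β : K} (hroot : N.IsRoot β) (hder : N.derivative.eval β ≠ 0) : r = 1 := by
  by_contra h1
  have h2 : 2 ≤ r := by omega
  have hMroot : M.eval β = 0 := by
    have h0 : N.eval β = 0 := hroot
    rw [hNM, eval_pow] at h0
    exact pow_eq_zero_iff hr |>.mp h0
  apply hder
  obtain ⟨s, rfl⟩ : ∃ s, r = s + 2 := ⟨r - 2, by omega⟩
  rw [hNM, derivative_pow, eval_mul, eval_mul, eval_pow, hMroot]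
  simp

/-- **(P2') primitivity.**  If `N_{F/K(x)}(θ - c) = N(x)` for a polynomial `N` with a simple zero
at `β`, then `K(x)(θ) = F`. -/
theorem adjoin_eq_top_of_simple_root (hx : Transcendental K x) [FiniteDimensional K⟮x⟯ F]
    {θ : F} (c : K) (N : K[X])
    (hN : aeval (AdjoinSimple.gen K x) N = Algebra.norm K⟮x⟯ (θ - algebraMap K F c))
    {β : K} (hroot : N.IsRoot β) (hder : N.derivative.eval β ≠ 0) :
    K⟮x⟯⟮θ⟯ = ⊤ := by
  set y : F := θ - algebraMap K F c with hy
  have hcmem : ∀ E : IntermediateField K⟮x⟯ F, algebraMap K F c ∈ E := fun E => by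
    rw [IsScalarTower.algebraMap_apply K K⟮x⟯ F]
    exact E.algebraMap_mem _
  have hadj : K⟮x⟯⟮y⟯ = K⟮x⟯⟮θ⟯ := by
    apply le_antisymm
    · rw [adjoin_simple_le_iff]
      exact sub_mem (mem_adjoin_simple_self _ θ) (hcmem _)
    · rw [adjoin_simple_le_iff]
      have : θ = y + algebraMap K F c := by rw [hy]; ring
      rw [this]
      exact add_mem (mem_adjoin_simple_self _ y) (hcmem _)
  rw [← hadj]
  set r := finrank K⟮x⟯⟮y⟯ F with hr
  have hr0 : r ≠ 0 := (finrank_pos (R := K⟮x⟯⟮y⟯) (M := F)).ne'
  have hnorm := Algebra.norm_eq_norm_adjoin K⟮x⟯ y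
  rw [← hN] at hnorm
  obtain ⟨M, hM⟩ := exists_aeval_gen_eq_of_pow_eq hx hr0 N hnorm.symm
  have hNM : N = M ^ r := by
    apply aeval_gen_injective hx
    rw [hnorm, map_pow, hM]
  have hr1 : r = 1 := eq_one_of_pow_eq_of_derivative_ne_zero hr0 hNM hroot hder
  apply IntermediateField.eq_of_le_of_finrank_eq' le_top
  rw [← hr, hr1, IntermediateField.finrank_top]

/-- Variant of `adjoin_eq_top_of_simple_root` with the norm of `c - θ`. -/
theorem adjoin_eq_top_of_simple_root' (hx : Transcendental K x) [FiniteDimensional K⟮x⟯ F]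
    {θ : F} (c : K) (N : K[X])
    (hN : aeval (AdjoinSimple.gen K x) N = Algebra.norm K⟮x⟯ (algebraMap K F c - θ))
    {β : K} (hroot : N.IsRoot β) (hder : N.derivative.eval β ≠ 0) :
    K⟮x⟯⟮θ⟯ = ⊤ := by
  set d := finrank K⟮x⟯ F
  have hneg : Algebra.norm K⟮x⟯ (θ - algebraMap K F c) =
      (-1) ^ d * Algebra.norm K⟮x⟯ (algebraMap K F c - θ) := by
    have h1 : θ - algebraMap K F c = algebraMap K⟮x⟯ F (-1) * (algebraMap K F c - θ) := by
      rw [map_neg, map_one]; ring
    rw [h1, map_mul, Algebra.norm_algebraMap]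
  refine adjoin_eq_top_of_simple_root hx c (C ((-1) ^ d) * N) ?_ (β := β) ?_ ?_
  · rw [hneg, ← hN, map_mul, aeval_C, map_pow, map_neg, map_one]
  · rw [IsRoot.def, eval_mul, hroot.eq_zero, mul_zero]
  · rw [derivative_C_mul, eval_mul, eval_C]
    exact mul_ne_zero (pow_ne_zero _ (by norm_num)) hder

/-- If `θ` is primitive for `F / K(x)`, its first `[F : K(x)]` powers are linearly independent. -/
theorem linearIndependent_pow_of_adjoin_eq_top [FiniteDimensional K⟮x⟯ F] {θ : F}
    (htop : K⟮x⟯⟮θ⟯ = ⊤) {d : ℕ} (hd : finrank K⟮x⟯ F = d) :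
    LinearIndependent K⟮x⟯ (fun j : Fin d => θ ^ (j : ℕ)) := by
  have hint : IsIntegral K⟮x⟯ θ := Algebra.IsIntegral.isIntegral θ
  have hdeg : (minpoly K⟮x⟯ θ).natDegree = d := by
    rw [← IntermediateField.adjoin.finrank hint, htop, IntermediateField.finrank_top', hd]
  have h := linearIndependent_pow (K := K⟮x⟯) θ
  rw [hdeg] at h
  exact h

/-! ### Bridge to determinants of coordinate matrices (`powDet ≠ 0`) -/

section Det

variable {E L : Type*} [Field E] [Field L] [Algebra E L]
  {ι : Type*} [Fintype ι] [DecidableEq ι]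

/-- The coordinate determinant of a linearly independent family indexed by the index type of a
basis is nonzero. -/
theorem det_toMatrix_ne_zero_of_linearIndependent (b : Basis ι E L) {v : ι → L}
    (hv : LinearIndependent E v) : (b.toMatrix v).det ≠ 0 := by
  have hcard : Fintype.card ι = finrank E L := (finrank_eq_card_basis b).symm
  haveI : FiniteDimensional E L := b.finiteDimensional_of_finite
  have hspan : Submodule.span E (Set.range v) = ⊤ :=
    hv.span_eq_top_of_card_eq_finrank' hcard
  have h := (b.is_basis_iff_det (v := v)).mp ⟨hv, hspan⟩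
  rw [b.det_apply] at h
  exact h.ne_zero

/-- **`D_θ ≠ 0` from linear independence of the powers of `θ`.**  `A` is a matrix over a ring `S`
(think `S = K[X]`) whose image under an injective-or-not ring hom `φ : S →+* E` is the matrix of
coordinates of the powers `θ ^ (e j)` in the basis `b`; if the first `card ι` powers of `θ` are
linearly independent then `det A ≠ 0`. -/
theorem det_ne_zero_of_repr_pow {S : Type*} [CommRing S] (φ : S →+* E) (b : Basis ι E L)
    (e : ι ≃ Fin (Fintype.card ι)) (θ : L) (A : Matrix ι ι S)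
    (hA : ∀ i j, φ (A i j) = b.repr (θ ^ ((e j : Fin (Fintype.card ι)) : ℕ)) i)
    (hli : LinearIndependent E (fun j : Fin (Fintype.card ι) => θ ^ (j : ℕ))) :
    A.det ≠ 0 := by
  intro h0
  have hv : LinearIndependent E (fun j : ι => θ ^ ((e j : Fin (Fintype.card ι)) : ℕ)) :=
    hli.comp e e.injective
  apply det_toMatrix_ne_zero_of_linearIndependent b hv
  have hmat : b.toMatrix (fun j : ι => θ ^ ((e j : Fin (Fintype.card ι)) : ℕ)) = φ.mapMatrix A := by
    ext i j
    rw [Basis.toMatrix_apply, RingHom.mapMatrix_apply, Matrix.map_apply, hA]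
  rw [hmat, ← RingHom.map_det, h0, map_zero]

end Det

end Fermat.Agent.S27x.Spec.Normal.Primitive
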