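import Mathlib
import Fermat.Agent.S24.ZeroPlacesAll
import Fermat.Agent.S27x.Lift.NiceRep
import Fermat.Agent.S27x.G2bCov.FullFibreBelyi

/-!
# P-S27 block D4, (P1) + (P2) + (P2'): the auxiliary function `θ`

`F / K` a function field of one variable over an algebraically closed field of characteristic
zero, `x : F` transcendental with `F / K(x)` finite, `S : Finset K` a finite set of points of the
`x`-line.

* `placesOver x S` : the places of `F` over the points `x = β`, `β ∈ S` (`finite_placesOver`).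
* `IsTheta x S θ val` : `θ` is integral over `K[x]`, and at every place `v` over a point of `S` the
  function `θ` takes the value `val v` with multiplicity one, the values being pairwise distinct.
* (P1) `exists_isTheta` : such a `θ` exists.
* (P2) `IsTheta.rootMultiplicity_le_one`, `IsTheta.derivative_eval_ne_zero`,
  `IsTheta.derivative_eval_ne_zero_of_bivariate` : a polynomial `N ∈ K[X]` representing
  `Norm_{F/K(x)} (θ - c)` (or `Norm (c - θ)`) has at most a simple zero at every `β ∈ S`.
* (P2') `IsTheta.adjoin_eq_top` : if `S ≠ ∅` then `θ` is a primitive element of `F / K(x)`;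
  `IsTheta.linearIndependent_pow` : the powers `θ ^ j`, `j < [F : K(x)]`, are `K(x)`-independent.
-/

set_option autoImplicit false
set_option linter.unusedSectionVars false
set_option linter.style.haveILetI false

noncomputable section

open Polynomial IntermediateField AlgebraicCurve

namespace Fermat.Agent.S27x.Spec.Normal

open Fermat.Agent.S24 Fermat.Agent.S27x.G2bCov

variable {K F : Type*} [Field K] [Field F] [Algebra K F]

/-- The places of `F` over the points `x = β`, `β ∈ S`. -/
def placesOver (x : F) (S : Finset K) : Set (Place K F) :=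
  {v | ∃ β ∈ S, 0 < v.ord (x - algebraMap K F β)}

theorem mem_placesOver {x : F} {S : Finset K} {v : Place K F} :
    v ∈ placesOver x S ↔ ∃ β ∈ S, 0 < v.ord (x - algebraMap K F β) := Iff.rfl

/-! ### Orders of polynomial values -/

namespace ThetaAux

section OrdPoly

variable (v : Place K F) {x : F}

theorem ne_zero_of_ord_pos {f : F} (h : 0 < v.ord f) : f ≠ 0 := by
  rintro rfl
  have : v.ord (0 : F) = 0 := v.ord_zero
  omega

theorem mem_of_ord_pos {f : F} (h : 0 < v.ord f) : f ∈ v.toValuationSubring :=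
  (place_mem_iff_ord_nonneg v (ne_zero_of_ord_pos v h)).mpr h.le

theorem aeval_mem_of_mem (hx : x ∈ v.toValuationSubring) (p : K[X]) :
    aeval x p ∈ v.toValuationSubring := by
  rw [aeval_eq_sum_range]
  refine sum_mem fun i _ => ?_
  rw [Algebra.smul_def]
  exact mul_mem (v.algebraMap_mem' _) (pow_mem hx i)

theorem mem_of_ord_sub_pos {β : K} (h : 0 < v.ord (x - algebraMap K F β)) :
    x ∈ v.toValuationSubring := by
  have h1 := mem_of_ord_pos v h
  have h2 := add_mem h1 (v.algebraMap_mem' β)
  simpa using h2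

/-- At a place over `x = β`, a polynomial in `x` which does not vanish at `β` is a unit. -/
theorem ord_aeval_eq_zero {β : K} (h : 0 < v.ord (x - algebraMap K F β)) {R : K[X]}
    (hR : R.eval β ≠ 0) : v.ord (aeval x R) = 0 := by
  have hw := isAddVal_ord v
  obtain ⟨R₁, hR₁⟩ := X_sub_C_dvd_sub_C_eval (p := R) (a := β)
  have hy0 := ne_zero_of_ord_pos v h
  have hc0 : algebraMap K F (R.eval β) ≠ 0 := (_root_.map_ne_zero _).mpr hR
  have hdec : aeval x R = algebraMap K F (R.eval β) + (x - algebraMap K F β) * aeval x R₁ := by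
    have := congrArg (aeval x) hR₁
    simp only [map_sub, map_mul, aeval_X, aeval_C] at this
    rw [← this]
    ring
  rw [hdec]
  by_cases ht : aeval x R₁ = 0
  · rw [ht, mul_zero, add_zero]
    exact hw.map_const _ hR
  · have h1 : 0 ≤ v.ord (aeval x R₁) :=
      (place_mem_iff_ord_nonneg v ht).mp (aeval_mem_of_mem v (mem_of_ord_sub_pos v h) R₁)
    have h2 : v.ord ((x - algebraMap K F β) * aeval x R₁) =
        v.ord (x - algebraMap K F β) + v.ord (aeval x R₁) := hw.map_mul _ _ hy0 ht
    have h3 : v.ord (algebraMap K F (R.eval β)) = 0 := hw.map_const _ hR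
    have h4 : v.ord (algebraMap K F (R.eval β)) <
        v.ord ((x - algebraMap K F β) * aeval x R₁) := by omega
    rw [hw.map_add_of_lt hc0 (mul_ne_zero hy0 ht) h4, h3]

/-- **The order of a polynomial in `x` at a place over `x = β`** is the root multiplicity times
the ramification index. -/
theorem ord_aeval_eq {β : K} (h : 0 < v.ord (x - algebraMap K F β)) {N : K[X]}
    (hNx : aeval x N ≠ 0) :
    v.ord (aeval x N) = (N.rootMultiplicity β : ℤ) * v.ord (x - algebraMap K F β) := by
  have hw := isAddVal_ord v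
  have hN : N ≠ 0 := by
    rintro rfl
    exact hNx (map_zero _)
  obtain ⟨R, hR, hndvd⟩ := exists_eq_pow_rootMultiplicity_mul_and_not_dvd N hN β
  have hRβ : R.eval β ≠ 0 := by
    intro h0
    exact hndvd (dvd_iff_isRoot.mpr h0)
  have hy0 := ne_zero_of_ord_pos v h
  have hdec : aeval x N =
      (x - algebraMap K F β) ^ N.rootMultiplicity β * aeval x R := by
    conv_lhs => rw [hR]
    simp only [map_mul, map_pow, map_sub, aeval_X, aeval_C]
  have hR0 : aeval x R ≠ 0 := by
    intro h0
    rw [hdec, h0, mul_zero] at hNx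
    exact hNx rfl
  rw [hdec, hw.map_mul _ _ (pow_ne_zero _ hy0) hR0, hw.map_pow hy0, ord_aeval_eq_zero v h hRβ,
    add_zero]

end OrdPoly

/-! ### Places over a point of the `x`-line -/

section Over

variable [IsAlgClosed K] [CharZero K] {x : F} (hx : Transcendental K x)
  [FiniteDimensional K⟮x⟯ F]

theorem norm_congr_field {E E' : IntermediateField K F} (h : E = E') (g : F) :
    algebraMap E F (Algebra.norm E g) = algebraMap E' F (Algebra.norm E' g) := by
  subst h
  rfl

include hx

theorem finite_zeros_sub (β : K) :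
    {v : Place K F | 0 < v.ord (x - algebraMap K F β)}.Finite := by
  have hy := transcendental_sub_const hx β
  have he := adjoin_sub_const (K := K) x β
  haveI : FiniteDimensional K⟮x - algebraMap K F β⟯ F := by rw [he]; infer_instance
  have hf : Finite {v : Place K F // 0 < v.ord (x - algebraMap K F β)} :=
    (ZeroPlacesAll.zeroPlacesData (x - algebraMap K F β) hy).finite
  exact (Set.finite_coe_iff (s := {v : Place K F | 0 < v.ord (x - algebraMap K F β)})).mp hf

theorem exists_place_over (β : K) : ∃ v : Place K F, 0 < v.ord (x - algebraMap K F β) := by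
  have hy := transcendental_sub_const hx β
  have he := adjoin_sub_const (K := K) x β
  haveI : FiniteDimensional K⟮x - algebraMap K F β⟯ F := by rw [he]; infer_instance
  obtain ⟨inst, hsum⟩ := ZD.sum_ord_zeros (x - algebraMap K F β) hy
  by_contra hne
  push Not at hne
  haveI : IsEmpty {v : Place K F // 0 < v.ord (x - algebraMap K F β)} :=
    ⟨fun v => absurd v.2 (not_lt.mpr (hne v.1))⟩
  rw [Finset.univ_eq_empty, Finset.sum_empty] at hsum
  have hpos : 0 < Module.finrank K⟮x - algebraMap K F β⟯ F := Module.finrank_pos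
  omega

theorem finite_placesOver (S : Finset K) : (placesOver (F := F) x S).Finite := by
  have h1 : placesOver (F := F) x S =
      ⋃ β ∈ (S : Set K), {v : Place K F | 0 < v.ord (x - algebraMap K F β)} := by
    ext v
    simp only [placesOver, Set.mem_ofPred_eq, Set.mem_iUnion, Finset.mem_coe, exists_prop]
  rw [h1]
  exact Set.Finite.biUnion S.finite_toSet fun β _ => finite_zeros_sub hx β

theorem ord_nonneg_of_mem_placesOver {S : Finset K} {v : Place K F}
    (hv : v ∈ placesOver x S) : 0 ≤ v.ord x := by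
  obtain ⟨β, -, hβ⟩ := hv
  have hx0 : x ≠ 0 := by
    rintro rfl
    exact hx isAlgebraic_zero
  exact (place_mem_iff_ord_nonneg v hx0).mp (mem_of_ord_sub_pos v hβ)

/-- The norm formula at the places over `x = β`. -/
theorem ord_norm_over (β : K) (v' : Place K F) (hv' : 0 < v'.ord (x - algebraMap K F β))
    (g : F) (hg : g ≠ 0) :
    v'.ord (algebraMap K⟮x⟯ F (Algebra.norm K⟮x⟯ g)) =
      v'.ord (x - algebraMap K F β) *
        ∑ᶠ v : {v : Place K F // 0 < v.ord (x - algebraMap K F β)}, v.1.ord g := by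
  have hy := transcendental_sub_const hx β
  have he := adjoin_sub_const (K := K) x β
  haveI : FiniteDimensional K⟮x - algebraMap K F β⟯ F := by rw [he]; infer_instance
  have h := OrdNorm.ord_norm (x - algebraMap K F β) hy v' hv' g hg
  rw [norm_congr_field he g] at h
  exact h

end Over

end ThetaAux

open ThetaAux

/-! ### The function `θ` -/

/-- `θ` is integral over `K[x]` and takes, with multiplicity one, pairwise distinct values
`val v` at the places `v` over the points of `S`. -/
structure IsTheta (x : F) (S : Finset K) (θ : F) (val : Place K F → K) : Prop where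
  integral : IsIntegral (Algebra.adjoin K {x}) θ
  inj : Set.InjOn val (placesOver x S)
  ord : ∀ v ∈ placesOver x S, v.ord (θ - algebraMap K F (val v)) = 1

section Theta

variable [IsAlgClosed K] [CharZero K] {x : F} (hx : Transcendental K x)
  [FiniteDimensional K⟮x⟯ F]

include hx in
/-- **(P1)** existence of `θ`. -/
theorem exists_isTheta (S : Finset K) : ∃ (θ : F) (val : Place K F → K), IsTheta x S θ val := by
  classical
  have hfin := finite_placesOver hx (F := F) S
  obtain ⟨θ, val, hint, hinj, hord⟩ :=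
    Fermat.Agent.S27x.Lift.NiceRep.exists_unramified_function hx hfin.toFinset
      (fun Q hQ => ord_nonneg_of_mem_placesOver hx (hfin.mem_toFinset.mp hQ))
  refine ⟨θ, val, hint, ?_, ?_⟩
  · intro v hv v' hv' h
    exact hinj (by simpa using hv) (by simpa using hv') h
  · intro v hv
    exact hord v (hfin.mem_toFinset.mpr hv)

namespace IsTheta

variable {S : Finset K} {θ : F} {val : Place K F → K} (h : IsTheta x S θ val)
include h

theorem sub_val_ne_zero {v : Place K F} (hv : v ∈ placesOver x S) :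
    θ - algebraMap K F (val v) ≠ 0 :=
  ne_zero_of_ord_pos v (by rw [h.ord v hv]; exact one_pos)

open Classical in
/-- The order of `θ - c` at a place over a point of `S`. -/
theorem ord_sub_const {v : Place K F} (hv : v ∈ placesOver x S) (c : K) :
    v.ord (θ - algebraMap K F c) = if val v = c then 1 else 0 := by
  have hw := isAddVal_ord v
  split_ifs with hc
  · rw [← hc]
    exact h.ord v hv
  · have hne : val v - c ≠ 0 := sub_ne_zero.mpr hc
    have hc0 : algebraMap K F (val v - c) ≠ 0 := (_root_.map_ne_zero _).mpr hne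
    have h1 : v.ord (algebraMap K F (val v - c)) = 0 := hw.map_const _ hne
    have h2 := h.ord v hv
    have hdec : θ - algebraMap K F c =
        algebraMap K F (val v - c) + (θ - algebraMap K F (val v)) := by
      rw [map_sub]
      ring
    rw [hdec, hw.map_add_of_lt hc0 (h.sub_val_ne_zero hv) (by omega), h1]

include hx in
/-- `θ` is not constant (if `S ≠ ∅`). -/
theorem sub_const_ne_zero (hS : S.Nonempty) (c : K) : θ - algebraMap K F c ≠ 0 := by
  obtain ⟨β, hβ⟩ := hS
  obtain ⟨v, hv⟩ := exists_place_over hx (F := F) β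
  have hvS : v ∈ placesOver x S := ⟨β, hβ, hv⟩
  intro h0
  have hθ : θ = algebraMap K F c := sub_eq_zero.mp h0
  have h1 := h.ord v hvS
  rw [hθ, ← map_sub] at h1
  have hw := isAddVal_ord v
  by_cases hc : c - val v = 0
  · rw [hc, map_zero] at h1
    have : v.ord (0 : F) = 0 := v.ord_zero
    omega
  · rw [hw.map_const _ hc] at h1
    omega

open Classical in
/-- The sum of the orders of `θ - c` over the places over `x = β` is at most one. -/
theorem finsum_ord_sub_const {β : K} (hβ : β ∈ S) (c : K) :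
    ∑ᶠ v : {v : Place K F // 0 < v.ord (x - algebraMap K F β)},
        v.1.ord (θ - algebraMap K F c) =
      if ∃ v : Place K F, 0 < v.ord (x - algebraMap K F β) ∧ val v = c then 1 else 0 := by
  have hmem : ∀ v : {v : Place K F // 0 < v.ord (x - algebraMap K F β)},
      v.1 ∈ placesOver x S := fun v => ⟨β, hβ, v.2⟩
  split_ifs with hex
  · obtain ⟨v₀, hv₀, hc⟩ := hex
    rw [finsum_eq_single _ (⟨v₀, hv₀⟩ : {v : Place K F // 0 < v.ord (x - algebraMap K F β)})]
    · rw [h.ord_sub_const (hmem ⟨v₀, hv₀⟩), if_pos hc]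
    · intro v hv
      rw [h.ord_sub_const (hmem v), if_neg]
      intro hvc
      apply hv
      apply Subtype.ext
      exact h.inj (hmem v) (hmem ⟨v₀, hv₀⟩) (hvc.trans hc.symm)
  · apply finsum_eq_zero_of_forall_eq_zero
    intro v
    rw [h.ord_sub_const (hmem v), if_neg]
    intro hvc
    exact hex ⟨v.1, v.2, hvc⟩

include hx in
/-- **(P2), core**: a polynomial representing the norm of `θ - c` (or of any `g` with the same
orders, e.g. `c - θ`) vanishes to order at most one at every `β ∈ S`. -/
theorem rootMultiplicity_le_one {β : K} (hβ : β ∈ S) (c : K) (g : F)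
    (hg : ∀ v : Place K F, v.ord g = v.ord (θ - algebraMap K F c)) (hg0 : g ≠ 0)
    (N : K[X]) (hN : aeval x N = algebraMap K⟮x⟯ F (Algebra.norm K⟮x⟯ g)) :
    N.rootMultiplicity β ≤ 1 := by
  obtain ⟨v', hv'⟩ := exists_place_over hx (F := F) β
  have hnorm0 : algebraMap K⟮x⟯ F (Algebra.norm K⟮x⟯ g) ≠ 0 := by
    rw [Ne, map_eq_zero, Algebra.norm_eq_zero_iff]
    exact hg0
  have hNx : aeval x N ≠ 0 := by rw [hN]; exact hnorm0
  have h1 := ord_aeval_eq v' hv' hNx
  have h2 := ord_norm_over hx β v' hv' g hg0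
  rw [← hN, h1] at h2
  have h3 : ∑ᶠ v : {v : Place K F // 0 < v.ord (x - algebraMap K F β)}, v.1.ord g =
      ∑ᶠ v : {v : Place K F // 0 < v.ord (x - algebraMap K F β)},
        v.1.ord (θ - algebraMap K F c) := finsum_congr fun v => hg v.1
  rw [h3, h.finsum_ord_sub_const hβ c, mul_comm] at h2
  have h4 := mul_left_cancel₀ hv'.ne' h2
  split_ifs at h4 <;> omega

include hx in
/-- **(P2)**: a root `β ∈ S` of a polynomial representing the norm of `θ - c` (or of any `g`
with the same orders) is simple. -/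
theorem derivative_eval_ne_zero_of_ord {β : K} (hβ : β ∈ S) (c : K) (g : F)
    (hg : ∀ v : Place K F, v.ord g = v.ord (θ - algebraMap K F c)) (hg0 : g ≠ 0)
    (N : K[X]) (hN : aeval x N = algebraMap K⟮x⟯ F (Algebra.norm K⟮x⟯ g))
    (hroot : N.eval β = 0) : N.derivative.eval β ≠ 0 := by
  have hle := h.rootMultiplicity_le_one hx hβ c g hg hg0 N hN
  have hN0 : N ≠ 0 := by
    rintro rfl
    rw [map_zero] at hN
    have h1 : Algebra.norm K⟮x⟯ g = 0 := by
      have := hN.symm
      rwa [map_eq_zero] at this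
    exact hg0 (Algebra.norm_eq_zero_iff.mp h1)
  intro hd
  have := (one_lt_rootMultiplicity_iff_isRoot hN0).mpr ⟨hroot, hd⟩
  omega

include hx in
/-- **(P2)** for `Norm (θ - c)`. -/
theorem derivative_eval_ne_zero {β : K} (hβ : β ∈ S) (c : K) (N : K[X])
    (hN : aeval x N = algebraMap K⟮x⟯ F (Algebra.norm K⟮x⟯ (θ - algebraMap K F c)))
    (hroot : N.eval β = 0) : N.derivative.eval β ≠ 0 :=
  h.derivative_eval_ne_zero_of_ord hx hβ c _ (fun _ => rfl)
    (h.sub_const_ne_zero hx ⟨β, hβ⟩ c) N hN hroot

include hx in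
/-- **(P2)** for `Norm (c - θ)`. -/
theorem derivative_eval_ne_zero' {β : K} (hβ : β ∈ S) (c : K) (N : K[X])
    (hN : aeval x N = algebraMap K⟮x⟯ F (Algebra.norm K⟮x⟯ (algebraMap K F c - θ)))
    (hroot : N.eval β = 0) : N.derivative.eval β ≠ 0 := by
  have hne := h.sub_const_ne_zero hx ⟨β, hβ⟩ c
  refine h.derivative_eval_ne_zero_of_ord hx hβ c _ (fun v => ?_) ?_ N hN hroot
  · rw [← neg_sub, (isAddVal_ord v).map_neg hne]
  · rw [← neg_sub]
    exact neg_ne_zero.mpr hne

include hx in
/-- **(P2), bivariate form**: if `Q ∈ K[x][T]` satisfies `Q(x, c) = Norm (c - θ)` for all constants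
`c` (e.g. `Q` the characteristic polynomial of multiplication by `θ`), then at every point
`(β, θ₀)` of the plane curve `Q = 0` with `β ∈ S` the polynomial `Q(x, θ₀)` has a simple zero at
`x = β`, i.e. `(∂Q/∂x)(β, θ₀) ≠ 0`. -/
theorem derivative_eval_ne_zero_of_bivariate (Q : K[X][X])
    (hQ : ∀ c : K, aeval x (Q.eval (C c)) =
      algebraMap K⟮x⟯ F (Algebra.norm K⟮x⟯ (algebraMap K F c - θ)))
    {β : K} (hβ : β ∈ S) (θ₀ : K) (h0 : (Q.eval (C θ₀)).eval β = 0) :
    (derivative (Q.eval (C θ₀))).eval β ≠ 0 :=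
  h.derivative_eval_ne_zero' hx hβ θ₀ _ (hQ θ₀) h0

include hx in
/-- **(P2')**: `θ` is a primitive element of `F / K(x)` (if `S ≠ ∅`). -/
theorem adjoin_eq_top (hS : S.Nonempty) : K⟮x⟯⟮θ⟯ = ⊤ := by
  obtain ⟨β, hβ⟩ := hS
  obtain ⟨v₀, hv₀⟩ := exists_place_over hx (F := F) β
  have hv₀S : v₀ ∈ placesOver x S := ⟨β, hβ, hv₀⟩
  have hw := isAddVal_ord v₀
  have hg0 : θ - algebraMap K F (val v₀) ≠ 0 := h.sub_val_ne_zero hv₀S
  haveI : Algebra.IsSeparable K⟮x⟯ F := inferInstance
  have hnorm := Algebra.norm_eq_norm_adjoin K⟮x⟯ (θ - algebraMap K F (val v₀))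
  have h2 := ord_norm_over hx β v₀ hv₀ _ hg0
  rw [h.finsum_ord_sub_const hβ (val v₀), if_pos ⟨v₀, hv₀, rfl⟩, mul_one, hnorm, map_pow] at h2
  have hn0 : Algebra.norm K⟮x⟯ (AdjoinSimple.gen K⟮x⟯ (θ - algebraMap K F (val v₀))) ≠ 0 := by
    intro h0
    have h1 : Algebra.norm K⟮x⟯ (θ - algebraMap K F (val v₀)) ≠ 0 := by
      rw [Ne, Algebra.norm_eq_zero_iff]
      exact hg0
    rw [hnorm, h0] at h1
    by_cases hm : Module.finrank K⟮x⟯⟮θ - algebraMap K F (val v₀)⟯ F = 0
    · rw [hm, pow_zero, hw.map_one] at h2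
      omega
    · exact h1 (zero_pow hm)
  set n₀ := Algebra.norm K⟮x⟯ (AdjoinSimple.gen K⟮x⟯ (θ - algebraMap K F (val v₀))) with hn₀
  have hn0F : algebraMap K⟮x⟯ F n₀ ≠ 0 := (_root_.map_ne_zero _).mpr hn0
  obtain ⟨r, s, hrs⟩ := (mem_adjoin_simple_iff K ((n₀ : K⟮x⟯) : F)).mp n₀.2
  have hcoe : algebraMap K⟮x⟯ F n₀ = aeval x r / aeval x s := hrs
  have hr0 : aeval x r ≠ 0 := by
    intro h0
    rw [hcoe, h0, zero_div] at hn0F
    exact hn0F rfl
  have hs0 : aeval x s ≠ 0 := by
    intro h0
    rw [hcoe, h0, div_zero] at hn0F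
    exact hn0F rfl
  rw [hw.map_pow hn0F, hcoe, hw.map_div hr0 hs0, ord_aeval_eq v₀ hv₀ hr0,
    ord_aeval_eq v₀ hv₀ hs0] at h2
  have h3 : ((Module.finrank K⟮x⟯⟮θ - algebraMap K F (val v₀)⟯ F : ℕ) : ℤ) *
      ((r.rootMultiplicity β : ℤ) - (s.rootMultiplicity β : ℤ)) = 1 := by
    have h4 : ((Module.finrank K⟮x⟯⟮θ - algebraMap K F (val v₀)⟯ F : ℕ) : ℤ) *
        ((r.rootMultiplicity β : ℤ) - (s.rootMultiplicity β : ℤ)) *
          v₀.ord (x - algebraMap K F β) = 1 * v₀.ord (x - algebraMap K F β) := by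
      linear_combination h2
    exact mul_right_cancel₀ hv₀.ne' h4
  have hdvd : ((Module.finrank K⟮x⟯⟮θ - algebraMap K F (val v₀)⟯ F : ℕ) : ℤ) ∣ ((1 : ℕ) : ℤ) :=
    ⟨_, by rw [Nat.cast_one]; exact h3.symm⟩
  have hm1 : Module.finrank K⟮x⟯⟮θ - algebraMap K F (val v₀)⟯ F = 1 :=
    Nat.dvd_one.mp (Int.natCast_dvd_natCast.mp hdvd)
  have htop := IntermediateField.finrank_eq_one_iff_eq_top.mp hm1
  have he := adjoin_sub_const (K := K⟮x⟯) θ (algebraMap K K⟮x⟯ (val v₀))
  rw [← he]
  exact htop

include hx in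
/-- **(P2')**: the powers `θ ^ j`, `j < [F : K(x)]`, are linearly independent over `K(x)`. -/
theorem finrank_eq_natDegree_minpoly (hS : S.Nonempty) :
    Module.finrank K⟮x⟯ F = (minpoly K⟮x⟯ θ).natDegree := by
  have htop := h.adjoin_eq_top hx hS
  have hint : IsIntegral K⟮x⟯ θ := Algebra.IsIntegral.isIntegral θ
  rw [← IntermediateField.adjoin.finrank hint, htop, IntermediateField.finrank_top']

include hx in
theorem linearIndependent_pow (hS : S.Nonempty) :
    LinearIndependent K⟮x⟯ fun i : Fin (Module.finrank K⟮x⟯ F) => θ ^ (i : ℕ) := by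
  have h1 := h.finrank_eq_natDegree_minpoly hx hS
  have h2 := _root_.linearIndependent_pow (K := K⟮x⟯) θ
  rw [← h1] at h2
  exact h2

end IsTheta

end Theta

end Fermat.Agent.S27x.Spec.Normal
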