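import Fermat.Agent.S27x.Spec.Normal.Theta
import Fermat.Agent.S27x.Spec.GaussNorm.ModelDiscr
import Fermat.Agent.S27x.Spec.GaussNorm.ModelDegree

/-!
# P-S27 block D4: the auxiliary function `θ` in the language of a normal weighted model

`M : IsModel W x f i₀ PK` a weighted model of `F / K` (`K` algebraically closed of characteristic
zero) which is normal (`hB` : every element integral over `K[x]` is an `ev x f u`).

The characteristic polynomial `Q t ∈ K[x][T]` of multiplication by `θ = ev x f t` and the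
determinant `Dθ t` of the powers of `θ` are taken abstractly (they are `CharQ.charQ PK t` and
`CharQ.powDet PK t i₀`); the only inputs are the norm formula `hQ` (`CharQ.norm_sub_ev`) and
`hD` (`CharQ.powDet_ne_zero_of_adjoin_eq_top`).

* `exists_t` : for every finite nonempty set `S` of points of the `x`-line there is
  `t : ι → K[X]` with `Dθ t ≠ 0` such that at every point `(β, θ₀)`, `β ∈ S`, of the plane curve
  `Q t = 0` one has `(∂Q/∂x)(β, θ₀) ≠ 0`.
* `exists_t_discr` : the same with `S ⊇` the roots of a given polynomial `δ ≠ 0` (e.g. the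
  discriminant of the model).
-/

set_option autoImplicit false
set_option linter.unusedSectionVars false

open Polynomial IntermediateField AlgebraicCurve

namespace Fermat.Agent.S27x.Spec.Normal.ThetaModel

open Fermat.Agent.S27x.Spec.GaussNorm Fermat.Agent.S27x.Spec.Normal

variable {ι : Type*} [Fintype ι] {W : Weights ι} {K F : Type*} [Field K] [Field F] [Algebra K F]
  [IsAlgClosed K] [CharZero K]
  {x : F} {f : ι → F} {i₀ : ι} {PK : ι → ι → ι → K[X]}

/-- **K-side of D4**: existence of `t` with `θ = ev x f t` primitive and regular over `S`. -/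
theorem exists_t (M : IsModel W x f i₀ PK)
    (hB : ∀ g : F, IsIntegral (Algebra.adjoin K {x}) g → ∃ u : ι → K[X], g = ev x f u)
    (Q : (ι → K[X]) → K[X][X]) (Dθ : (ι → K[X]) → K[X])
    (hQ : ∀ (t : ι → K[X]) (c : K), Algebra.norm K⟮x⟯ (algebraMap K F c - ev x f t) =
      aeval (AdjoinSimple.gen K x) ((Q t).eval (C c)))
    (hD : ∀ t : ι → K[X], K⟮x⟯⟮ev x f t⟯ = ⊤ → Dθ t ≠ 0)
    (S : Finset K) (hS : S.Nonempty) :
    ∃ t : ι → K[X], Dθ t ≠ 0 ∧ K⟮x⟯⟮ev x f t⟯ = ⊤ ∧
      ∀ β ∈ S, ∀ θ₀ : K, ((Q t).eval (C θ₀)).eval β = 0 →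
        (derivative ((Q t).eval (C θ₀))).eval β ≠ 0 := by
  have := M.finiteDimensional
  have hx := M.transcendental
  obtain ⟨θ, val, h⟩ := exists_isTheta hx (F := F) S
  obtain ⟨t, rfl⟩ := hB θ h.integral
  have htop := h.adjoin_eq_top hx hS
  refine ⟨t, hD t htop, htop, fun β hβ θ₀ h0 => ?_⟩
  refine h.derivative_eval_ne_zero_of_bivariate hx (Q t) (fun c => ?_) hβ θ₀ h0
  rw [hQ t c, IsModel.algebraMap_aeval_gen]

/-- **K-side of D4**, with `S ⊇` the roots of `δ`. -/
theorem exists_t_discr (M : IsModel W x f i₀ PK)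
    (hB : ∀ g : F, IsIntegral (Algebra.adjoin K {x}) g → ∃ u : ι → K[X], g = ev x f u)
    (Q : (ι → K[X]) → K[X][X]) (Dθ : (ι → K[X]) → K[X])
    (hQ : ∀ (t : ι → K[X]) (c : K), Algebra.norm K⟮x⟯ (algebraMap K F c - ev x f t) =
      aeval (AdjoinSimple.gen K x) ((Q t).eval (C c)))
    (hD : ∀ t : ι → K[X], K⟮x⟯⟮ev x f t⟯ = ⊤ → Dθ t ≠ 0)
    {δ : K[X]} (hδ : δ ≠ 0) :
    ∃ t : ι → K[X], Dθ t ≠ 0 ∧ K⟮x⟯⟮ev x f t⟯ = ⊤ ∧
      ∀ β : K, δ.IsRoot β → ∀ θ₀ : K, ((Q t).eval (C θ₀)).eval β = 0 →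
        (derivative ((Q t).eval (C θ₀))).eval β ≠ 0 := by
  classical
  obtain ⟨t, h1, h2, h3⟩ := exists_t M hB Q Dθ hQ hD (insert 0 δ.roots.toFinset)
    (Finset.insert_nonempty _ _)
  refine ⟨t, h1, h2, fun β hβ θ₀ h0 => h3 β ?_ θ₀ h0⟩
  rw [Finset.mem_insert, Multiset.mem_toFinset, mem_roots hδ]
  exact Or.inr hβ

end Fermat.Agent.S27x.Spec.Normal.ThetaModel
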