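import Fermat.Agent.S27x.Spec.Normal.ThetaCharQ
import Fermat.Agent.S27x.Spec.AperyModel

/-!
# P-S27 block D4: `ThetaProp` (the K-side input of `Normal/Main.lean`)

`thetaProp_unfolded` is the statement `ThetaProp` of the D4 contract (note
`S27-IFACE-Spec/Normal/Main v1`), with the definition unfolded: for every weighted model
`M : AperyModel.ModelAt P d` of a function field `F / K` (`K` algebraically closed of
characteristic zero) there is `t : Fin d → K[X]` such that `θ = ev x f t` is primitive
(`powDet ≠ 0`) and the plane curve `charQ M.PK t = 0` is regular in the `x`-direction over all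
roots of the discriminant of the model.
-/

set_option autoImplicit false
set_option linter.unusedSectionVars false

open Polynomial AlgebraicCurve

namespace Fermat.Agent.S27x.Spec.Normal.ThetaModel

open Fermat.Agent.S27x.Spec.GaussNorm Fermat.Agent.S27x.Spec.Normal Fermat.Agent.S27x.Spec

universe u v

/-- **`ThetaProp`**, unfolded. -/
theorem thetaProp_unfolded :
    ∀ (K : Type u) [Field K] [IsAlgClosed K] [CharZero K] (F : Type v) [Field F] [Algebra K F]
      (P : Place K F) (d : ℕ) (M : AperyModel.ModelAt P d),
      ∃ t : Fin d → K[X], powDet M.PK t M.i₀ ≠ 0 ∧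
        ∀ β θ₀ : K, (discr M.PK).IsRoot β → ((charQ M.PK t).eval (C θ₀)).IsRoot β →
          ((charQ M.PK t).eval (C θ₀)).derivative.eval β ≠ 0 := by
  intro K _ _ _ F _ _ P d M
  obtain ⟨t, h1, -, h3⟩ := exists_t_charQ_discr M.model (fun g hg => (M.integral_iff g).mp hg)
  exact ⟨t, h1, fun β θ₀ hβ h0 => h3 β hβ θ₀ h0⟩

end Fermat.Agent.S27x.Spec.Normal.ThetaModel
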